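import Fermat.Agent.Engine.OrdTop.Main
import Fermat.Agent.OrdinaryT.Bad
import Fermat.Agent.OrdinaryT.ResidualChar

/-!
# The ordinary condition at levels divisible by `p` once

`IsTorsionRep.ordinary_sq`: the conclusion of `IsTorsionRep.ordinary` when `p ^ 2` does not divide
the level.
-/

set_option autoImplicit false
set_option linter.unusedSectionVars false

noncomputable section

namespace Fermat.Agent.Engine.OrdTop

open EigenRep ModularCurve TRep AlgebraicCurve Matrix OrdinaryT SemistableRed IsLocalRing HeckeModule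

local notation "Ω" => AlgebraicClosure ℚ
local notation "GQ" => AlgebraicClosure ℚ ≃ₐ[ℚ] AlgebraicClosure ℚ

section Level

variable {N p : ℕ} [NeZero N] [Fact p.Prime] (I : RepInputs N p) (S : Finset ℕ)

/-- The Hecke operator of a prime outside the set, in the algebra. -/
def awayGen (l : AwayIndex (↑S : Set ℕ)) : matAway I S :=
  ⟨heckeMat I.model l.1, heckeMat_mem I S l.1 fun h => l.2 (Finset.mem_coe.mpr h)⟩

/-- The polynomials in the Hecke operators, in the algebra. -/
def awayHom : AwayPoly ℤ (↑S : Set ℕ) →+* matAway I S :=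
  (MvPolynomial.aeval (R := ℤ) (awayGen I S)).toRingHom

/-- The Hecke homomorphism on a variable. -/
theorem awayHom_X (l : AwayIndex (↑S : Set ℕ)) : awayHom I S (MvPolynomial.X l) = awayGen I S l :=
  MvPolynomial.aeval_X _ l

/-- The Hecke homomorphism intertwines with the action on points. -/
theorem point_awayHom (n : ℕ) (a : AwayPoly ℤ (↑S : Set ℕ)) (v : Vec I n) :
    point I n (awayHom I S a • v) = act N (↑S : Set ℕ) a (point I n v) := by
  induction a using MvPolynomial.induction_on generalizing v with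
  | C c =>
    rw [act_C, show awayHom I S (MvPolynomial.C c) = (c : matAway I S) from
      by rw [eq_intCast MvPolynomial.C c, map_intCast], Int.cast_smul_eq_zsmul, map_zsmul]
  | add a b ha hb => rw [map_add, add_smul, map_add, ha, hb, act_add]
  | mul_X a l ha =>
    rw [map_mul, mul_smul, ha, act_mul, awayHom_X, act_X]
    exact congrArg _ (point_hecke I S n l.1 v)

variable {k : Type} [Field k] [CharP k p] (φ : matAway I S →+* k)
  (ρbar : GQ →* Matrix (Fin 2) (Fin 2) k)
  (htr : ∀ g, φ (awayTrace I S g) = (ρbar g).trace)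
  (hdet : ∀ g, φ (awayEps I S g) = (ρbar g).det)
  (hspan : Submodule.span k (Set.range ρbar) = ⊤)
  {A : ValuationSubring Ω}
  (hinertia : ∀ σ ∈ A.inertiaSubgroupIn ℚ, (ρbar σ).trace = 1 + (ρbar σ).det)
  (hmax : (RingHom.ker φ).IsMaximal)

include hmax in
/-- Outside the maximal ideal multiplication is injective on vectors killed by a power of it. -/
theorem eq_zero_of_smul {n j : ℕ} {y : Vec I n} (hkill : ∀ i ∈ RingHom.ker φ ^ j, i • y = 0)
    {b : matAway I S} (hb : φ b ≠ 0) (h0 : b • y = 0) : y = 0 := by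
  obtain ⟨c, i, hi, h1⟩ := hmax.exists_inv (x := b) (fun h => hb (RingHom.mem_ker.mp h))
  have hy : i • y = y := by
    conv_rhs => rw [← one_smul (matAway I S) y, ← h1, add_smul, mul_smul, h0, smul_zero, zero_add]
  have hpow : ∀ m : ℕ, i ^ m • y = y := fun m => by
    induction m with
    | zero => rw [pow_zero, one_smul]
    | succ m ih => rw [pow_succ, mul_smul, hy, ih]
  rw [← hpow j]
  exact hkill _ (Ideal.pow_mem_pow hi j)

/-- The character sends the cyclotomic element to the cyclotomic character modulo `p ^ n`. -/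
theorem phi_awayEps {n : ℕ} (hn : n ≠ 0) (g : GQ) :
    φ (awayEps I S g) = ((epsilonNat p n g : ℤ) : k) := by
  rw [awayEps_apply, phi_algebraMap_eq_natCast I S φ hn, Int.cast_natCast]
  rfl

include hmax in
/-- The traces seen by the residual map come from primes outside the set. -/
theorem exists_away_trace {n j : ℕ} {y : Vec I n} (hy0 : y ≠ 0)
    (hkill : ∀ i ∈ RingHom.ker φ ^ j, i • y = 0) (hn : n ≠ 0) (g : GQ) :
    ∃ l : AwayIndex (↑S : Set ℕ), φ (awayGen I S l) = φ (awayTrace I S g) ∧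
      φ (awayEps I S g) = ((l.1 : ℕ) : k) ∧
      ∀ v : Vec I n, awayGen I S l • v = awayTrace I S g • v := by
  obtain ⟨ℓ, hℓ, hℓS, hd, B, hB, σ, hσ, h₁, h₂⟩ := exists_frobenius_congr I n g S
  have heq : ∀ v : Vec I n,
      awayGen I S ⟨⟨ℓ, hℓ⟩, fun h => hℓS (Finset.mem_coe.mp h)⟩ • v = awayTrace I S g • v := fun v => by
    show matMod p I.model.d n (heckeMat I.model ⟨ℓ, hℓ⟩) *ᵥ v = matMod p I.model.d n (tMat I g) *ᵥ v
    rw [matMod_tMat_eq I h₁ h₂, tMat_frobenius I hℓ hd hB hσ]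
  refine ⟨⟨⟨ℓ, hℓ⟩, fun h => hℓS (Finset.mem_coe.mp h)⟩, ?_, ?_, heq⟩
  · by_contra hne
    refine hy0 (eq_zero_of_smul I S φ hmax hkill (b := awayGen I S ⟨⟨ℓ, hℓ⟩, fun h =>
      hℓS (Finset.mem_coe.mp h)⟩ - awayTrace I S g) (by rwa [map_sub, sub_ne_zero]) ?_)
    rw [sub_smul, heq, sub_self]
  · have hℓp : ℓ ≠ p := fun h => hd (h ▸ dvd_mul_left p N)
    have hε : (epsilonPadic p σ : ℤ_[p]) = ℓ := epsilon_frobenius hℓ hℓp hB hσ
    rw [phi_awayEps I S φ hn, Int.cast_natCast, epsilonNat, h₂, hε, map_natCast, ZMod.val_natCast]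
    exact (CharP.natCast_eq_natCast k p).mpr (by
      have h := Nat.mod_modEq ℓ (p ^ n)
      exact h.of_dvd (dvd_pow_self p hn))

/-- A matrix identity from the identity on points. -/
theorem matMod_eq_zero_of_point {n : ℕ} (E : matAway I S) {σ τ : GQ}
    (h : ∀ v : Vec I n, σ • (τ • point I n (E • v) - point I n (E • v)) =
      (epsilonNat p n σ : ℤ) • (τ • point I n (E • v) - point I n (E • v))) :
    matMod p I.model.d n ((E : Matrix (Fin I.model.d) (Fin I.model.d) ℤ_[p]) *
      ((galMat I.model σ - (epsilonPadic p σ : ℤ_[p]) • 1) * (galMat I.model τ - 1))) = 0 := by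
  refine Matrix.ext_of_mulVec_single fun i => ?_
  set v : Vec I n := (Pi.single i 1 : Fin I.model.d → ZMod (p ^ n)) with hv
  have key := h v
  rw [natCast_zsmul, ← point_gal I S, ← map_sub, ← point_gal I S, ← map_nsmul] at key
  have h := point_injective I n key
  rw [← awayEps_smul I S, ← sub_eq_zero] at h
  rw [zero_mulVec, map_mul, ← mulVec_mulVec]
  show E • (show Vec I n from matMod p I.model.d n ((galMat I.model σ -
    (epsilonPadic p σ : ℤ_[p]) • 1) * (galMat I.model τ - 1)) *ᵥ v) = 0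
  have e : (show Vec I n from matMod p I.model.d n ((galMat I.model σ -
      (epsilonPadic p σ : ℤ_[p]) • 1) * (galMat I.model τ - 1)) *ᵥ v) =
      vecGal I S n σ (vecGal I S n τ v - v) - awayEps I S σ • (vecGal I S n τ v - v) := by
    rw [map_mul, map_sub, map_sub, map_one, Algebra.smul_def, mul_one, ← mulVec_mulVec,
      sub_mulVec, sub_mulVec, one_mulVec]
    rfl
  rw [e, smul_sub, smul_comm E (awayEps I S σ), ← map_smul, smul_sub E, ← map_smul]
  exact h

end Level

variable {M p : ℕ} [NeZero M] [NeZero p] [Fact p.Prime] (I : RepInputs (M * p) p) (S : Finset ℕ)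
  {k : Type} [Field k] [CharP k p] (φ : matAway I S →+* k)
  (ρbar : GQ →* Matrix (Fin 2) (Fin 2) k)
  (htr : ∀ g, φ (awayTrace I S g) = (ρbar g).trace)
  (hdet : ∀ g, φ (awayEps I S g) = (ρbar g).det)
  (hspan : Submodule.span k (Set.range ρbar) = ⊤)
  {A : ValuationSubring Ω}
  (hinertia : ∀ σ ∈ A.inertiaSubgroupIn ℚ, (ρbar σ).trace = 1 + (ρbar σ).det)
  (hmax : (RingHom.ker φ).IsMaximal)
  [CharP (ResidueField A) p] [IsAlgClosed (ResidueField A)]

include htr hdet hspan hinertia hmax in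
/-- **The ordinary identity on the part** at level `M p`. -/
theorem exists_ordinary_multiplier_bad (hA : A.LiesOverPrime p) (hp3 : 3 ≤ p) (hpM : ¬ p ∣ M)
    (hNS : ∀ q : ℕ, q.Prime → q ∣ M * p * p → q ∈ S) (n : ℕ) :
    ∃ E : matAway I S, φ E ≠ 0 ∧ ∀ σ ∈ A.inertiaSubgroupIn ℚ, ∀ τ ∈ A.inertiaSubgroupIn ℚ,
      matMod p I.model.d n ((E : Matrix (Fin I.model.d) (Fin I.model.d) ℤ_[p]) *
        ((galMat I.model σ - (epsilonPadic p σ : ℤ_[p]) • 1) * (galMat I.model τ - 1))) = 0 := by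
  classical
  have hp : p.Prime := Fact.out
  rcases Nat.eq_zero_or_pos n with rfl | hn
  · refine ⟨1, by rw [map_one]; exact one_ne_zero, fun σ _ τ _ => ?_⟩
    have : Subsingleton (ZMod (p ^ 0)) := inferInstanceAs (Subsingleton (ZMod 1))
    exact Subsingleton.elim _ _
  have : NeZero (p ^ n) := ⟨pow_ne_zero n hp.ne_zero⟩
  let St : Setting A M p := ⟨hpM, hA, ⟨_, IgusaGenus.reductionFacts hpM hA⟩⟩
  obtain ⟨E, hE, hEE, j, hj⟩ := exists_projector (redAway I S n) φ
  refine ⟨E, hE, fun σ hσ τ hτ => matMod_eq_zero_of_point I S E fun v => ?_⟩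
  have hEy : ∀ y : Vec I n, E • E • y = E • y := fun y => by
    rw [smul_smul, smul_vec_def, smul_vec_def, hEE]
  have hEkill : ∀ y : Vec I n, E • y = y → ∀ i ∈ RingHom.ker φ ^ j, i • y = 0 := fun y hy i hi => by
    rw [← hy, smul_smul, smul_vec_def, hj i hi, zero_mulVec]
  rcases eq_or_ne (E • v) 0 with h0 | hy₁0
  · rw [h0, map_zero, galois_zero, sub_zero, galois_zero, zsmul_zero]
  have hkill₁ := hEkill _ (hEy v)
  -- the part
  let Vv : AddSubgroup (Vec I n) :=
    (DistribSMul.toAddMonoidHom (Vec I n) E - AddMonoidHom.id _).ker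
  have hVv : ∀ {y}, y ∈ Vv ↔ E • y = y := fun {y} => by
    simp [Vv, AddMonoidHom.mem_ker, sub_eq_zero]
  let V₀ := Vv.map (point I n)
  have : Finite V₀ := (Set.Finite.image _ (Set.toFinite (Vv : Set (Vec I n)))).to_subtype
  set T : Set ℕ := (↑S : Set ℕ)
  let κ : AwayPoly ℤ T →+* k := φ.comp (awayHom I S)
  have hκX : ∀ l : AwayIndex T, κ (MvPolynomial.X l) = φ (awayGen I S l) := fun l => by
    show φ (awayHom I S _) = _
    rw [awayHom_X]
  have hpT : p ∈ T := Finset.mem_coe.mpr (hNS p hp (dvd_mul_left p _))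
  have hMT : ∀ r : ℕ, r.Prime → r ∣ M * p → r ∈ T :=
    fun r hr h => Finset.mem_coe.mpr (hNS r hr (h.mul_right p))
  set tbar : GQ → k := fun g => (ρbar g).trace with htbar
  have hV : IsPart p κ n tbar V₀ := by
    refine ⟨?_, ?_, ?_, ?_, fun g => ?_⟩
    · rintro _ ⟨y, -, rfl⟩; exact pow_smul_point I n y
    · rintro g _ ⟨y, hy, rfl⟩
      exact ⟨vecGal I S n g y, hVv.mpr (by rw [← map_smul, hVv.mp hy]), point_gal I S n g y⟩
    · rintro b hb _ ⟨y, hy, rfl⟩ h
      rw [← point_awayHom] at h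
      rw [eq_zero_of_smul I S φ hmax (hEkill y (hVv.mp hy)) hb
        (point_injective I n (h.trans (map_zero _).symm)), map_zero]
    · rintro a _ ⟨y, hy, rfl⟩
      exact ⟨awayHom I S a • y, hVv.mpr (by rw [smul_comm, hVv.mp hy]), point_awayHom I S n a y⟩
    · obtain ⟨l, hl, -, hlv⟩ := exists_away_trace I S φ hmax hy₁0 hkill₁ hn.ne' g
      refine ⟨MvPolynomial.X l, by rw [hκX, hl, htr], ?_⟩
      rintro _ ⟨y, -, rfl⟩
      rw [← point_gal I S, ← point_gal I S, ← point_awayHom, awayHom_X, hlv, natCast_zsmul,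
        ← map_nsmul, ← awayEps_smul I S, ← map_sub, ← map_add]
      have h := LinearMap.congr_fun (quadraticAction_vecGal I S n g) y
      simp only [LinearMap.add_apply, LinearMap.sub_apply, Module.End.mul_apply,
        LinearMap.smul_apply, Module.End.one_apply, LinearMap.zero_apply] at h
      rw [h, map_zero]
  obtain ⟨s, hs, hc⟩ := hasTameGenerator (p := p) (by omega) hA hn.ne'
  have hdet' : ∀ g, (ρbar g).det = ((epsilonNat p n g : ℤ) : k) := fun g => by
    rw [← hdet, phi_awayEps I S φ hn.ne']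
  have htI : ∀ g ∈ A.inertiaSubgroupIn ℚ, tbar g = 1 + ((epsilonNat p n g : ℤ) : k) := fun g hg => by
    rw [← hdet']; exact hinertia g hg
  have hno := no_residual_char ρbar hspan (tbar := tbar) (fun _ => rfl) hdet' hc (htI s hs)
  obtain ⟨g₀, hg₀⟩ : ∃ g, tbar g ≠ ((epsilonNat p n g : ℤ) : k) + 1 := by
    by_contra h
    push Not at h
    exact hno ⟨fun _ => 1, fun _ _ => (one_mul 1).symm, fun g => ⟨one_ne_zero, by rw [h g]; ring⟩⟩
  obtain ⟨l, hl, hlε, -⟩ := exists_away_trace I S φ hmax hy₁0 hkill₁ hn.ne' g₀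
  refine ordinary_part_bad St (by omega) hpT hMT hn.ne' hV hno (l := l) ?_ htI hσ hτ
    (AddSubgroup.mem_map_of_mem (point I n) (hVv.mpr (hEy v)))
  rw [hκX, hl, htr, ← hlε, phi_awayEps I S φ hn.ne']
  exact hg₀

end Fermat.Agent.Engine.OrdTop

namespace Fermat.Agent.Engine.TRep

open EigenRep HeckeModule DefRing Matrix ModularCurve IsLocalRing

local notation "GQ" => AlgebraicClosure ℚ ≃ₐ[ℚ] AlgebraicClosure ℚ

variable {N p : ℕ} [NeZero N] [Fact p.Prime] (I : RepInputs N p)
  {O : Type} [CommRing O] (ι : ℤ_[p] →+* O) (S : Finset ℕ)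
  (m : Ideal (AwayPoly O (↑S : Set ℕ))) [m.IsPrime]
  {k : Type} [Field k] (res : TLoc I ι S m →+* k)

/-- **The ordinary identity over the localised Hecke algebra**, `p ^ 2` not dividing the level. -/
theorem IsTorsionRep.ordinary_sq [Finite k] [CharP k p] (hp3 : 3 ≤ p) (hpN : ¬ p * p ∣ N)
    (hNS : ∀ q : ℕ, q.Prime → q ∣ N * p → q ∈ S)
    {R : MRep (TLoc I ι S m)} (hR : IsTorsionRep I ι S m R)
    (hres : ∀ a ∈ m, res (tHom I ι S m a) = 0) (ρbar : GQ →* Matrix (Fin 2) (Fin 2) k)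
    (htr : ∀ g, res (tTrace I ι S m g) = (ρbar g).trace)
    (hdet : ∀ g, res (tInt I ι S m (epsilonPadic p g : ℤ_[p])) = (ρbar g).det)
    (hspan : Submodule.span k (Set.range ρbar) = ⊤)
    {A : ValuationSubring (AlgebraicClosure ℚ)} (hA : A.LiesOverPrime p)
    (hinertia : ∀ σ ∈ A.inertiaSubgroupIn ℚ, (ρbar σ).trace = 1 + (ρbar σ).det)
    {σ τ : GQ} (hσ : σ ∈ A.inertiaSubgroupIn ℚ) (hτ : τ ∈ A.inertiaSubgroupIn ℚ) :
    (R σ - tInt I ι S m (epsilonPadic p σ : ℤ_[p]) • 1) * (R τ - 1) = 0 := by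
  by_cases hp : p ∣ N
  swap
  · exact hR.ordinary I ι S m res hp3 hp hNS hres ρbar htr hdet hspan hA hinertia hσ hτ
  obtain ⟨M, rfl⟩ : ∃ M, N = M * p := by
    obtain ⟨M, hM⟩ := hp; exact ⟨M, hM.trans (mul_comm p M)⟩
  have hpM : ¬ p ∣ M := fun h => hpN (Nat.mul_dvd_mul h dvd_rfl)
  have : NeZero M := ⟨fun h => NeZero.ne (M * p) (by rw [h, zero_mul])⟩
  have : NeZero p := ⟨(Fact.out : p.Prime).ne_zero⟩
  have := Reduction.charP_residueField (A := A) hA
  have : IsAlgClosed (ResidueField A) := Reduction.isAlgClosed_residueField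
  have hmax : (RingHom.ker (matRes I ι S m res)).IsMaximal := by
    have : Finite (matRes I ι S m res).range := Subtype.finite
    have : Finite (matAway I S ⧸ RingHom.ker (matRes I ι S m res)) :=
      Finite.of_injective _ (RingHom.kerLift_injective (matRes I ι S m res))
    have : (RingHom.ker (matRes I ι S m res)).IsPrime := RingHom.ker_isPrime _
    exact Ideal.Quotient.maximal_of_isField _ (Finite.isField_of_domain _)
  have h := hR.transfer_mul (epsilonPadic p σ : ℤ_[p]) 1 σ τ fun n => ?_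
  · rwa [map_one, one_smul] at h
  obtain ⟨E, hE, hEn⟩ := OrdTop.exists_ordinary_multiplier_bad I S (matRes I ι S m res) ρbar
    (fun g => (matRes_awayTrace I ι S m res g).trans (htr g))
    (fun g => (matRes_awayEps I ι S m res g).trans (hdet g)) hspan hinertia hmax hA hp3 hpM hNS n
  refine ⟨E, E.2, ?_, by rw [one_smul]; exact hEn σ hσ τ hτ⟩
  obtain ⟨a, ha⟩ := latHom_surjective I ι S ⟨matEnd I ι E, matEnd_mem I ι S E.2⟩
  refine ⟨a, fun ham => hE ?_, ha⟩
  refine Eq.trans ?_ (hres a ham)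
  show res (algebraMap (LatAlg I ι S) (TLoc I ι S m) ⟨matEnd I ι E, matEnd_mem I ι S E.2⟩) =
    res (algebraMap (LatAlg I ι S) (TLoc I ι S m) (latHom I ι S a))
  rw [ha]

end Fermat.Agent.Engine.TRep
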