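import Fermat.Agent.Engine.OrdTop.Main
import Fermat.Agent.OrdinaryT.Parts
import Fermat.Agent.Engine.TRep.Congr

/-!
# The Hecke operator at `p` on the ordinary part at good level

For `σ₀` in inertia of nontrivial character and a Frobenius `φ`, the element
`u = (ε(σ₀) t(φ) - t(σ₀ φ)) / (ε(σ₀) - 1)` satisfies `u T_p = u² + p` modulo `pⁿ` after an element
outside the maximal ideal, and on the lattice after one element outside it.
-/

set_option autoImplicit false
set_option linter.unusedSectionVars false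

noncomputable section

namespace Fermat.Agent.Engine.OrdTop

open EigenRep ModularCurve TRep AlgebraicCurve Matrix OrdinaryT SemistableRed IsLocalRing HeckeModule

local notation "Ω" => AlgebraicClosure ℚ
local notation "GQ" => AlgebraicClosure ℚ ≃ₐ[ℚ] AlgebraicClosure ℚ

section Part

variable {N p : ℕ} [NeZero N] [Fact p.Prime] (I : RepInputs N p) (S : Finset ℕ)

/-- The unit root in the Hecke algebra of matrices. -/
def awayRoot (c : ℤ_[p]) (σ₀ φF : GQ) : matAway I S :=
  algebraMap ℤ_[p] (matAway I S) c *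
    (awayEps I S σ₀ * awayTrace I S φF - awayTrace I S (σ₀ * φF))

variable {k : Type} [Field k] [CharP k p] (φ : matAway I S →+* k)
  (ρbar : GQ →* Matrix (Fin 2) (Fin 2) k)
  (htr : ∀ g, φ (awayTrace I S g) = (ρbar g).trace)
  (hdet : ∀ g, φ (awayEps I S g) = (ρbar g).det)
  (hspan : Submodule.span k (Set.range ρbar) = ⊤)
  {A : ValuationSubring Ω}
  (hinertia : ∀ σ ∈ A.inertiaSubgroupIn ℚ, (ρbar σ).trace = 1 + (ρbar σ).det)
  (hmax : (RingHom.ker φ).IsMaximal)
  [CharP (ResidueField A) p] [IsAlgClosed (ResidueField A)]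

include htr hdet hspan hinertia hmax in
/-- **The Hecke operator at `p` on the part.** -/
theorem exists_heckeP_multiplier (hA : A.LiesOverPrime p) (hp3 : 3 ≤ p) (hpN : ¬ p ∣ N)
    (hNS : ∀ q : ℕ, q.Prime → q ∣ N * p → q ∈ S) {σ₀ φF : GQ}
    (hσ₀ : σ₀ ∈ A.inertiaSubgroupIn ℚ) (hφF : A.IsFrobeniusAt φF p) {c : ℤ_[p]}
    (hc : c * ((epsilonPadic p σ₀ : ℤ_[p]) - 1) = 1) (n : ℕ) :
    ∃ E : matAway I S, φ E ≠ 0 ∧
      matMod p I.model.d n ((E : Matrix (Fin I.model.d) (Fin I.model.d) ℤ_[p]) *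
        ((awayRoot I S c σ₀ φF : Matrix (Fin I.model.d) (Fin I.model.d) ℤ_[p]) *
            heckeMat I.model (⟨p, Fact.out⟩ : Nat.Primes) -
          ((awayRoot I S c σ₀ φF : Matrix (Fin I.model.d) (Fin I.model.d) ℤ_[p]) *
              (awayRoot I S c σ₀ φF : Matrix (Fin I.model.d) (Fin I.model.d) ℤ_[p]) +
            (p : ℤ_[p]) • 1))) = 0 := by
  classical
  have hp : p.Prime := Fact.out
  rcases Nat.eq_zero_or_pos n with rfl | hn
  · refine ⟨1, by rw [map_one]; exact one_ne_zero, ?_⟩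
    have : Subsingleton (ZMod (p ^ 0)) := inferInstanceAs (Subsingleton (ZMod 1))
    exact Subsingleton.elim _ _
  have : NeZero p := ⟨hp.ne_zero⟩
  have : NeZero (p ^ n) := ⟨pow_ne_zero n hp.ne_zero⟩
  let St : Setting A N p := ⟨hpN, hA, ⟨_, IgusaGenus.reductionFacts hpN hA⟩⟩
  set u := awayRoot I S c σ₀ φF with hu
  let T := vecHecke I S n (⟨p, hp⟩ : Nat.Primes)
  obtain ⟨E, hE, hEE, j, hj⟩ := exists_projector (redAway I S n) φ
  refine ⟨E, hE, ?_⟩
  have hEy : ∀ y : Vec I n, E • E • y = E • y := fun y => by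
    rw [smul_smul, smul_vec_def, smul_vec_def, hEE]
  have hEkill : ∀ y : Vec I n, E • y = y → ∀ i ∈ RingHom.ker φ ^ j, i • y = 0 := fun y hy i hi => by
    rw [← hy, smul_smul, smul_vec_def, hj i hi, zero_mulVec]
  let Vv : AddSubgroup (Vec I n) :=
    (DistribSMul.toAddMonoidHom (Vec I n) E - AddMonoidHom.id _).ker
  have hVv : ∀ {y}, y ∈ Vv ↔ E • y = y := fun {y} => by
    simp [Vv, AddMonoidHom.mem_ker, sub_eq_zero]
  have hgal : ∀ g, ∀ y ∈ Vv, vecGal I S n g y ∈ Vv := fun g y hy => hVv.mpr (by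
    rw [← map_smul, hVv.mp hy])
  have hsmul : ∀ a : matAway I S, ∀ y ∈ Vv, a • y ∈ Vv := fun a y hy => hVv.mpr (by
    rw [smul_comm, hVv.mp hy])
  have hTmem : ∀ y ∈ Vv, T y ∈ Vv := fun y hy => hVv.mpr (by rw [← map_smul, hVv.mp hy])
  have hTgal : ∀ g z, T (vecGal I S n g z) = vecGal I S n g (T z) := fun g z => by
    refine point_injective I n ?_
    exact (point_hecke I S n _ _).trans ((congrArg _ (point_gal I S n g z)).trans
      ((I.equivariant g _ _).trans ((congrArg (g • ·) (point_hecke I S n _ z).symm).trans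
        (point_gal I S n g _).symm)))
  -- the kernel
  let K : AddSubgroup (Vec I n) := Vv ⊓ (goodKilled St (p ^ n)).comap (point I n)
  have hKmem : ∀ {y}, y ∈ K ↔ y ∈ Vv ∧ point I n y ∈ goodKilled St (p ^ n) := fun {y} => Iff.rfl
  have hID : ∀ {g : GQ}, g ∈ A.inertiaSubgroupIn ℚ → g ∈ A.decompositionSubgroup ℚ :=
    fun {g} hg => by obtain ⟨⟨s, hs⟩, -, rfl⟩ := hg; exact hs
  have hKD : ∀ g ∈ A.decompositionSubgroup ℚ, ∀ y ∈ K, vecGal I S n g y ∈ K := fun g hg y hy =>
    hKmem.mpr ⟨hgal g y hy.1, by rw [point_gal]; exact smul_mem_goodKilled St hg hy.2⟩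
  have hKI : ∀ y ∈ Vv, vecGal I S n σ₀ y - y ∈ K := fun y hy =>
    hKmem.mpr ⟨sub_mem (hgal σ₀ y hy) hy, by
      rw [map_sub, point_gal]; exact smul_sub_mem_goodKilled St hσ₀ (pow_smul_point I n y)⟩
  have hKscal : ∀ (r : ℤ_[p]), ∀ y ∈ K, algebraMap ℤ_[p] (matAway I S) r • y ∈ K := fun r y hy => by
    rw [algebraMap_smul_vec]; exact nsmul_mem hy _
  have hepsσ : ¬ (p : ℤ) ∣ (epsilonNat p n σ₀ : ℤ) - 1 := fun hd => by
    have h1 := congrArg (ZMod.castHom (dvd_pow_self p hn.ne') (ZMod p))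
      (congrArg (PadicInt.toZModPow n) hc)
    rw [map_mul (PadicInt.toZModPow n), map_sub (PadicInt.toZModPow n), map_one, map_one, map_mul,
      map_sub, map_one, ← ZMod.natCast_zmod_val (PadicInt.toZModPow n (epsilonPadic p σ₀ : ℤ_[p])),
      map_natCast] at h1
    rw [← ZMod.intCast_zmod_eq_zero_iff_dvd, Int.cast_sub, Int.cast_natCast, Int.cast_one] at hd
    change ((epsilonNat p n σ₀ : ℕ) : ZMod p) - 1 = 0 at hd
    change _ * (((epsilonNat p n σ₀ : ℕ) : ZMod p) - 1) = 1 at h1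
    rw [hd, mul_zero] at h1
    exact zero_ne_one h1
  -- no fixed vectors
  have hKfree : ∀ y ∈ K, vecGal I S n σ₀ y = y → y = 0 := by
    intro y hy hfix
    let V₀ := Vv.map (point I n)
    have : Finite V₀ := (Set.Finite.image _ (Set.toFinite (Vv : Set (Vec I n)))).to_subtype
    refine point_injective I n ((core_good St V₀ ?_ ?_ hσ₀ (exists_moves_root hn.ne' hepsσ)
      (AddSubgroup.mem_map_of_mem _ hy.1) hy.2 (pow_smul_point I n y) ?_).trans (map_zero _).symm)
    · rintro _ ⟨z, hz, rfl⟩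
      exact ⟨T z, hTmem z hz, point_hecke I S n (⟨p, hp⟩ : Nat.Primes) z⟩
    · rintro _ ⟨z, hz, rfl⟩ h0
      have hTz : vecHecke I S n (⟨p, hp⟩ : Nat.Primes) z = 0 :=
        point_injective I n ((point_hecke I S n (⟨p, hp⟩ : Nat.Primes) z).trans (h0.trans (map_zero _).symm))
      rw [eq_zero_of_heckeP I S φ ρbar htr hdet hspan hinertia hmax hA hp3 hpN hTz
        (hEkill z (hVv.mp hz)), map_zero]
    · rw [← point_gal I S, hfix]
  have hq : ∀ g y, vecGal I S n g (vecGal I S n g y) - awayTrace I S g • vecGal I S n g y +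
      awayEps I S g • y = 0 := fun g y => by
    have h := LinearMap.congr_fun (quadraticAction_vecGal I S n g) y
    simpa only [LinearMap.add_apply, LinearMap.sub_apply, Module.End.mul_apply,
      LinearMap.smul_apply, Module.End.one_apply, LinearMap.zero_apply] using h
  have hφD := hφF.mem_decompositionSubgroup
  -- the Frobenius is the unit root on the quotient
  have hroot : ∀ y ∈ Vv, vecGal I S n φF y - u • y ∈ K := by
    intro y₀ hy₀
    obtain ⟨y, hy, rfl⟩ : ∃ y ∈ Vv, vecGal I S n φF y = y₀ := ⟨_, hgal φF⁻¹ y₀ hy₀, by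
      rw [← Module.End.mul_apply, ← map_mul, mul_inv_cancel, map_one, Module.End.one_apply]⟩
    set F := vecGal I S n φF with hF
    set G := vecGal I S n σ₀ with hG
    have e1 := hq (σ₀ * φF) y
    rw [map_mul, map_mul, Module.End.mul_apply] at e1
    simp only [← hF, ← hG] at e1
    have a1 : F (G (F y)) - F (F y) ∈ K := by
      rw [← map_sub]; exact hKD φF hφD _ (hKI _ (hgal φF y hy))
    have a2 : G (F (G (F y))) - F (G (F y)) ∈ K := hKI _ (hgal φF _ (hgal σ₀ _ (hgal φF y hy)))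
    have a3 : G (awayTrace I S (σ₀ * φF) • F y) - awayTrace I S (σ₀ * φF) • F y ∈ K :=
      hKI _ (hsmul _ _ (hgal φF y hy))
    rw [map_smul] at a3
    have b : F (F y) - awayTrace I S (σ₀ * φF) • F y + (awayEps I S σ₀ * awayEps I S φF) • y ∈ K := by
      have := sub_mem (sub_mem a3 a2) a1
      convert this using 1
      linear_combination (norm := module) e1
    have hcl : algebraMap ℤ_[p] (matAway I S) c * (awayEps I S σ₀ - 1) = 1 := by
      rw [awayEps_apply, ← map_one (algebraMap ℤ_[p] (matAway I S)), ← map_sub, ← map_mul, hc,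
        map_one]
    have e2 := hq φF y
    simp only [← hF] at e2
    have e3 : F (F y) - u • F y = algebraMap ℤ_[p] (matAway I S) c •
        (-(F (F y) - awayTrace I S (σ₀ * φF) • F y + (awayEps I S σ₀ * awayEps I S φF) • y)) := by
      have e4 : ((algebraMap ℤ_[p] (matAway I S) c * (awayEps I S σ₀ - 1)) - 1) • F (F y) = 0 := by
        rw [hcl, sub_self, zero_smul]
      rw [hu, awayRoot]
      linear_combination (norm := module)
        (algebraMap ℤ_[p] (matAway I S) c * awayEps I S σ₀) • e2 - e4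
    rw [e3]
    exact hKscal c _ (neg_mem b)
  -- the relation with `T_p`
  let X : Module.End (matAway I S) (Vec I n) := u • T - (u * u + (p : matAway I S)) • 1
  have hX : ∀ y, X y = u • T y - (u • u • y + p • y) := fun y => by
    simp [X, add_smul, mul_smul, Nat.cast_smul_eq_nsmul]
  have hXK : ∀ y ∈ Vv, X y ∈ K := by
    intro y hy
    set F := vecGal I S n φF with hF
    have a1 : F (T y) - F (F y) - p • y ∈ K := by
      refine hKmem.mpr ⟨sub_mem (sub_mem (hgal _ _ (hTmem y hy)) (hgal _ _ (hgal _ _ hy)))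
        (nsmul_mem hy _), ?_⟩
      rw [map_sub, map_sub, map_nsmul, hF, point_gal, point_gal, point_gal, point_hecke]
      exact frobenius_relation_good St hφF (pow_smul_point I n y)
    have a2 := hroot (T y) (hTmem y hy)
    have a3 : F (F y) - F (u • y) ∈ K := by
      rw [← map_sub]; exact hKD φF hφD _ (hroot y hy)
    have a4 := hroot (u • y) (hsmul u y hy)
    have := add_mem (sub_mem a1 a2) (add_mem a3 a4)
    rw [hX]
    convert this using 1
    abel
  have hXzero : ∀ y ∈ Vv, X y = 0 := by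
    intro y hy
    by_contra h0
    refine false_of_fixed_point_free I S φ ρbar htr hdet hspan hinertia hmax hNS hn.ne' hσ₀ hepsσ
      (Vv.map X.toAddMonoidHom) ?_ ?_ (y := X y) (AddSubgroup.mem_map_of_mem X.toAddMonoidHom hy) h0
      (j := j) (fun i hi => ?_)
    · rintro g _ ⟨z, hz, rfl⟩
      refine ⟨vecGal I S n g z, hgal g z hz, ?_⟩
      show X (vecGal I S n g z) = vecGal I S n g (X z)
      rw [hX, hX, hTgal, map_sub, map_add, map_smul, map_smul, map_smul, map_nsmul]
    · rintro _ ⟨z, hz, rfl⟩ hfix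
      exact hKfree _ (hXK z hz) hfix
    · rw [← map_smul, hEkill y (hVv.mp hy) i hi, map_zero]
  refine Matrix.ext_of_mulVec_single fun i => ?_
  set v : Vec I n := (Pi.single i 1 : Fin I.model.d → ZMod (p ^ n)) with hv
  have key := hXzero (E • v) (hVv.mpr (hEy v))
  rw [map_smul] at key
  rw [zero_mulVec, map_mul, ← mulVec_mulVec]
  show E • (show Vec I n from matMod p I.model.d n _ *ᵥ v) = 0
  refine Eq.trans (congrArg (E • ·) ?_) key
  rw [map_sub, map_add, map_mul, map_mul, sub_mulVec, add_mulVec, ← mulVec_mulVec, ← mulVec_mulVec,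
    Nat.cast_smul_eq_nsmul, map_nsmul, map_one, smul_mulVec, one_mulVec, hX]
  rfl

end Part

end Fermat.Agent.Engine.OrdTop

namespace Fermat.Agent.Engine.TRep

open EigenRep HeckeModule DefRing Matrix ModularCurve IsLocalRing

local notation "GQ" => AlgebraicClosure ℚ ≃ₐ[ℚ] AlgebraicClosure ℚ

variable {N p : ℕ} [NeZero N] [Fact p.Prime] (I : RepInputs N p)
  {O : Type} [CommRing O] [IsNoetherianRing O] (ι : ℤ_[p] →+* O) (S : Finset ℕ)
  (m : Ideal (AwayPoly O (↑S : Set ℕ))) [m.IsPrime] [IsLocalRing (TLoc I ι S m)]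

/-- An endomorphism divisible by every power of `p` after elements outside `m` is killed by one of
them on the lattice. -/
theorem exists_mul_eq_zero (hp : ¬ IsUnit (p : TLoc I ι S m))
    (X : Matrix (Fin I.model.d) (Fin I.model.d) ℤ_[p])
    (h : ∀ n : ℕ, ∃ (A : Matrix (Fin I.model.d) (Fin I.model.d) ℤ_[p]) (hA : A ∈ matAway I S),
      (⟨matEnd I ι A, matEnd_mem I ι S hA⟩ : LatAlg I ι S) ∈ latMonoid I ι S m ∧
        matMod p I.model.d n (A * X) = 0) :
    ∃ a, a ∉ m ∧ (latHom I ι S a : Module.End O (Lat I O)) * matEnd I ι X = 0 := by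
  classical
  have hu : ∀ v : Lat I O, ∃ s : latMonoid I ι S m, (s : LatAlg I ι S) • matEnd I ι X v = 0 := by
    intro v
    have hz : LocalizedModule.mk (matEnd I ι X v) (1 : latMonoid I ι S m) = 0 := by
      have hbot := Ideal.iInf_pow_smul_eq_bot_of_isLocalRing (R := TLoc I ι S m)
        (M := VLoc I ι S m) (pIdeal I ι S m) (by rwa [Ne, Ideal.span_singleton_eq_top])
      refine (Submodule.eq_bot_iff _).mp hbot _ ((Submodule.mem_iInf _).mpr fun n => ?_)
      obtain ⟨A, hA, hmon, hmod⟩ := h n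
      obtain ⟨a, ha⟩ := IsLocalization.map_units (TLoc I ι S m)
        (⟨⟨matEnd I ι A, matEnd_mem I ι S hA⟩, hmon⟩ : latMonoid I ι S m)
      have hmem := mk_matEnd_mem I ι S m hmod v 1
      rw [map_mul, Module.End.mul_apply] at hmem
      have e2 : LocalizedModule.mk (matEnd I ι A (matEnd I ι X v)) (1 : latMonoid I ι S m) =
          (a : TLoc I ι S m) • LocalizedModule.mk (matEnd I ι X v) 1 := by
        rw [ha, algebraMap_smul, LocalizedModule.smul'_mk]; rfl
      rw [e2] at hmem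
      have h3 := Submodule.smul_mem _ (↑a⁻¹ : TLoc I ι S m) hmem
      rwa [smul_smul, Units.inv_mul, one_smul] at h3
    rw [← LocalizedModule.zero_mk (1 : latMonoid I ι S m), LocalizedModule.mk_eq] at hz
    obtain ⟨s, hs⟩ := hz
    rw [one_smul, one_smul, smul_zero] at hs
    exact ⟨s, hs⟩
  choose s hs using fun i => hu (Pi.single i (1 : O))
  obtain ⟨a, ha, hae⟩ : ((∏ i, s i : latMonoid I ι S m) : LatAlg I ι S) ∈
      m.primeCompl.map (latHom I ι S : AwayPoly O (↑S : Set ℕ) →+* LatAlg I ι S) :=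
    (∏ i, s i : latMonoid I ι S m).2
  refine ⟨a, ha, (Pi.basisFun O (Fin I.model.d)).ext fun i => ?_⟩
  rw [show latHom I ι S a = ((∏ i, s i : latMonoid I ι S m) : LatAlg I ι S) from hae,
    Pi.basisFun_apply, LinearMap.zero_apply]
  show ((∏ i, s i : latMonoid I ι S m) : LatAlg I ι S) • matEnd I ι X (Pi.single i 1) = 0
  rw [SubmonoidClass.coe_finsetProd, ← Finset.prod_erase_mul _ _ (Finset.mem_univ i), mul_smul, hs,
    smul_zero]

variable {k : Type} [Field k] (res : TLoc I ι S m →+* k)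

/-- **`u T_p = u² + p` on the lattice**, after an element outside `m`. -/
theorem exists_heckeP_eq [Finite k] [CharP k p] (hp3 : 3 ≤ p) (hpN : ¬ p ∣ N)
    (hNS : ∀ q : ℕ, q.Prime → q ∣ N * p → q ∈ S)
    (hres : ∀ a ∈ m, res (tHom I ι S m a) = 0) (ρbar : GQ →* Matrix (Fin 2) (Fin 2) k)
    (htr : ∀ g, res (tTrace I ι S m g) = (ρbar g).trace)
    (hdet : ∀ g, res (tInt I ι S m (epsilonPadic p g : ℤ_[p])) = (ρbar g).det)
    (hspan : Submodule.span k (Set.range ρbar) = ⊤)
    {A : ValuationSubring (AlgebraicClosure ℚ)} (hA : A.LiesOverPrime p)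
    (hinertia : ∀ σ ∈ A.inertiaSubgroupIn ℚ, (ρbar σ).trace = 1 + (ρbar σ).det)
    {σ₀ φF : GQ} (hσ₀ : σ₀ ∈ A.inertiaSubgroupIn ℚ) (hφF : A.IsFrobeniusAt φF p) {c : ℤ_[p]}
    (hc : c * ((epsilonPadic p σ₀ : ℤ_[p]) - 1) = 1) :
    ∃ a, a ∉ m ∧ ∀ u : LatAlg I ι S,
      u = algebraMap O (LatAlg I ι S) (ι c) *
        (algebraMap O (LatAlg I ι S) (ι (epsilonPadic p σ₀ : ℤ_[p])) * latTrace I ι S φF -
          latTrace I ι S (σ₀ * φF)) →
      (latHom I ι S a : Module.End O (Lat I O)) *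
        ((u : Module.End O (Lat I O)) * matEnd I ι (heckeMat I.model (⟨p, Fact.out⟩ : Nat.Primes)) -
          ((u : Module.End O (Lat I O)) * u + (p : Module.End O (Lat I O)))) = 0 := by
  have := Reduction.charP_residueField (A := A) hA
  have : IsAlgClosed (ResidueField A) := Reduction.isAlgClosed_residueField
  have hmax : (RingHom.ker (matRes I ι S m res)).IsMaximal := by
    have : Finite (matRes I ι S m res).range := Subtype.finite
    have : Finite (matAway I S ⧸ RingHom.ker (matRes I ι S m res)) :=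
      Finite.of_injective _ (RingHom.kerLift_injective (matRes I ι S m res))
    have : (RingHom.ker (matRes I ι S m res)).IsPrime := RingHom.ker_isPrime _
    exact Ideal.Quotient.maximal_of_isField _ (Finite.isField_of_domain _)
  set U := OrdTop.awayRoot I S c σ₀ φF
  obtain ⟨a, ha, hz⟩ := exists_mul_eq_zero I ι S m (fun hu => by
      have := (hu.map res).ne_zero
      rw [map_natCast, CharP.cast_eq_zero] at this
      exact this rfl)
    ((U : Matrix (Fin I.model.d) (Fin I.model.d) ℤ_[p]) *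
        heckeMat I.model (⟨p, Fact.out⟩ : Nat.Primes) -
      ((U : Matrix (Fin I.model.d) (Fin I.model.d) ℤ_[p]) * U + (p : ℤ_[p]) • 1)) fun n => by
    obtain ⟨E, hE, hEn⟩ := OrdTop.exists_heckeP_multiplier I S (matRes I ι S m res) ρbar
      (fun g => (matRes_awayTrace I ι S m res g).trans (htr g))
      (fun g => (matRes_awayEps I ι S m res g).trans (hdet g)) hspan hinertia hmax hA hp3 hpN hNS
      hσ₀ hφF hc n
    refine ⟨E, E.2, ?_, hEn⟩
    obtain ⟨b, hb⟩ := latHom_surjective I ι S ⟨matEnd I ι E, matEnd_mem I ι S E.2⟩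
    refine ⟨b, fun hbm => hE ?_, hb⟩
    refine Eq.trans ?_ (hres b hbm)
    show res (algebraMap (LatAlg I ι S) (TLoc I ι S m) ⟨matEnd I ι E, matEnd_mem I ι S E.2⟩) =
      res (algebraMap (LatAlg I ι S) (TLoc I ι S m) (latHom I ι S b))
    rw [hb]
  refine ⟨a, ha, fun u hu => ?_⟩
  have hU : (u : Module.End O (Lat I O)) = matEnd I ι U := by
    have e : ∀ r : ℤ_[p], algebraMap O (Module.End O (Lat I O)) (ι r) =
        matEnd I ι (algebraMap ℤ_[p] _ r) := fun r => by
      rw [Algebra.algebraMap_eq_smul_one, Algebra.algebraMap_eq_smul_one (R := ℤ_[p]), matEnd_smul,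
        map_one]
    rw [hu, Subalgebra.coe_mul, Subalgebra.coe_sub, Subalgebra.coe_mul, Subalgebra.coe_algebraMap,
      Subalgebra.coe_algebraMap, e, e]
    simp only [← map_mul, ← map_sub, latTrace]
    rfl
  rw [hU]
  simpa [Nat.cast_smul_eq_nsmul] using hz

end Fermat.Agent.Engine.TRep
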