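import Fermat.Agent.Engine.OrdTop.Part
import Fermat.Agent.Engine.Top.AtP
import Fermat.Agent.Reduction.Rank

/-!
# The ordinary condition on the Hecke side

`IsTorsionRep.ordinary`: at a level prime to `p`, for an absolutely irreducible residual
representation with trace `1 + det` on inertia at `p`, the representation over the localised Hecke
algebra satisfies `(R σ - ε σ) (R τ - 1) = 0` on inertia; with its consequences for the closed
ordinary condition.
-/

set_option autoImplicit false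

noncomputable section

namespace Fermat.Agent.Engine.TRep

open EigenRep HeckeModule DefRing Matrix ModularCurve IsLocalRing

local notation "GQ" => AlgebraicClosure ℚ ≃ₐ[ℚ] AlgebraicClosure ℚ

variable {N p : ℕ} [NeZero N] [Fact p.Prime] (I : RepInputs N p)
  {O : Type} [CommRing O] (ι : ℤ_[p] →+* O) (S : Finset ℕ)
  (m : Ideal (AwayPoly O (↑S : Set ℕ))) [m.IsPrime]
  {k : Type} [Field k] (res : TLoc I ι S m →+* k)

/-- The residual map on the algebra of Hecke matrices. -/
def matRes : matAway I S →+* k :=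
  (res.comp (algebraMap (LatAlg I ι S) (TLoc I ι S m))).comp
    (((matEnd I ι).comp (matAway I S).val.toRingHom).codRestrict (LatAlg I ι S).toSubring
      fun a => matEnd_mem I ι S a.2)

/-- The trace element maps to the trace. -/
theorem matRes_awayTrace (g : GQ) :
    matRes I ι S m res (OrdTop.awayTrace I S g) = res (tTrace I ι S m g) := rfl

/-- The cyclotomic element maps to the cyclotomic character. -/
theorem matRes_awayEps (g : GQ) :
    matRes I ι S m res (OrdTop.awayEps I S g) =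
      res (tInt I ι S m (epsilonPadic p g : ℤ_[p])) := by
  refine congrArg res ?_
  rw [RingHom.comp_apply, IsScalarTower.algebraMap_apply O (LatAlg I ι S) (TLoc I ι S m)]
  refine congrArg _ (Subtype.ext ?_)
  show matEnd I ι (algebraMap ℤ_[p] _ (epsilonPadic p g : ℤ_[p])) =
    algebraMap O (Module.End O (Lat I O)) (ι (epsilonPadic p g : ℤ_[p]))
  rw [Algebra.algebraMap_eq_smul_one, matEnd_smul, map_one, Algebra.algebraMap_eq_smul_one]

/-- **The ordinary identity over the localised Hecke algebra.** -/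
theorem IsTorsionRep.ordinary [Finite k] [CharP k p] (hp3 : 3 ≤ p) (hpN : ¬ p ∣ N)
    (hNS : ∀ q : ℕ, q.Prime → q ∣ N * p → q ∈ S)
    {R : MRep (TLoc I ι S m)} (hR : IsTorsionRep I ι S m R)
    (hres : ∀ a ∈ m, res (tHom I ι S m a) = 0) (ρbar : GQ →* Matrix (Fin 2) (Fin 2) k)
    (htr : ∀ g, res (tTrace I ι S m g) = (ρbar g).trace)
    (hdet : ∀ g, res (tInt I ι S m (epsilonPadic p g : ℤ_[p])) = (ρbar g).det)
    (hspan : Submodule.span k (Set.range ρbar) = ⊤)
    {A : ValuationSubring (AlgebraicClosure ℚ)} (hA : A.LiesOverPrime p)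
    (hinertia : ∀ σ ∈ A.inertiaSubgroupIn ℚ, (ρbar σ).trace = 1 + (ρbar σ).det)
    {σ τ : GQ} (hσ : σ ∈ A.inertiaSubgroupIn ℚ) (hτ : τ ∈ A.inertiaSubgroupIn ℚ) :
    (R σ - tInt I ι S m (epsilonPadic p σ : ℤ_[p]) • 1) * (R τ - 1) = 0 := by
  have := Reduction.charP_residueField (A := A) hA
  have : IsAlgClosed (ResidueField A) := Reduction.isAlgClosed_residueField
  have hmax : (RingHom.ker (matRes I ι S m res)).IsMaximal := by
    have : Finite (matRes I ι S m res).range := Subtype.finite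
    have : Finite (matAway I S ⧸ RingHom.ker (matRes I ι S m res)) :=
      Finite.of_injective _ (RingHom.kerLift_injective (matRes I ι S m res))
    have : (RingHom.ker (matRes I ι S m res)).IsPrime := RingHom.ker_isPrime _
    exact Ideal.Quotient.maximal_of_isField _ (Finite.isField_of_domain _)
  have h := hR.transfer_mul (epsilonPadic p σ : ℤ_[p]) 1 σ τ fun n => ?_
  · rwa [map_one, one_smul] at h
  obtain ⟨E, hE, hEn⟩ := OrdTop.exists_ordinary_multiplier I S (matRes I ι S m res) ρbar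
    (fun g => (matRes_awayTrace I ι S m res g).trans (htr g))
    (fun g => (matRes_awayEps I ι S m res g).trans (hdet g)) hspan hinertia hmax hA hp3 hpN hNS n
  refine ⟨E, E.2, ?_, by rw [one_smul]; exact hEn σ hσ τ hτ⟩
  obtain ⟨a, ha⟩ := latHom_surjective I ι S ⟨matEnd I ι E, matEnd_mem I ι S E.2⟩
  refine ⟨a, fun ham => hE ?_, ha⟩
  refine Eq.trans ?_ (hres a ham)
  show res (algebraMap (LatAlg I ι S) (TLoc I ι S m) ⟨matEnd I ι E, matEnd_mem I ι S E.2⟩) =
    res (algebraMap (LatAlg I ι S) (TLoc I ι S m) (latHom I ι S a))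
  rw [ha]

/-- The image in any algebra satisfies the ordinary equations, in any frame. -/
theorem IsTorsionRep.isOrdinaryOn {R : MRep (TLoc I ι S m)} {A : ValuationSubring (AlgebraicClosure ℚ)}
    (hord : ∀ σ ∈ A.inertiaSubgroupIn ℚ, ∀ τ ∈ A.inertiaSubgroupIn ℚ,
      (R σ - tInt I ι S m (epsilonPadic p σ : ℤ_[p]) • 1) * (R τ - 1) = 0)
    {O₀ : Type} [CommRing O₀] (χ : GQ → O₀) {B : Type} [CommRing B] [Algebra O₀ B]
    (F : TLoc I ι S m →+* B)
    (hF : ∀ σ, F (tInt I ι S m (epsilonPadic p σ : ℤ_[p])) = algebraMap O₀ B (χ σ))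
    (g : GL (Fin 2) B) (N' : MRep B)
    (hN' : ∀ σ, N' σ = (g : Matrix (Fin 2) (Fin 2) B) * (R σ).map F *
      ((g⁻¹ : GL (Fin 2) B) : Matrix (Fin 2) (Fin 2) B)) :
    Top.IsOrdinaryOn A χ N' := by
  intro σ hσ τ hτ
  have h1 := congrArg F.mapMatrix (hord σ hσ τ hτ)
  rw [map_mul, map_sub, map_sub, map_one, map_zero] at h1
  have e : F.mapMatrix (tInt I ι S m (epsilonPadic p σ : ℤ_[p]) • 1) =
      algebraMap O₀ B (χ σ) • (1 : Matrix (Fin 2) (Fin 2) B) := by
    rw [← hF σ]
    generalize tInt I ι S m (epsilonPadic p σ : ℤ_[p]) = x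
    ext a b
    by_cases hab : a = b <;> simp [hab]
  rw [e] at h1
  simp only [RingHom.mapMatrix_apply] at h1
  have hgg : (g : Matrix (Fin 2) (Fin 2) B) * ((g⁻¹ : GL (Fin 2) B) : Matrix (Fin 2) (Fin 2) B) = 1 :=
    by rw [← Units.val_mul, mul_inv_cancel, Units.val_one]
  have hgg' : ((g⁻¹ : GL (Fin 2) B) : Matrix (Fin 2) (Fin 2) B) * (g : Matrix (Fin 2) (Fin 2) B) = 1 :=
    by rw [← Units.val_mul, inv_mul_cancel, Units.val_one]
  set G := (g : Matrix (Fin 2) (Fin 2) B)
  set G' := ((g⁻¹ : GL (Fin 2) B) : Matrix (Fin 2) (Fin 2) B)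
  have eA : ∀ (X : Matrix (Fin 2) (Fin 2) B) (c : B),
      G * (X - c • 1) * G' = G * X * G' - c • 1 := fun X c => by
    rw [Matrix.mul_sub, Matrix.sub_mul, Matrix.mul_smul, mul_one, Matrix.smul_mul, hgg]
  have eB : ∀ X : Matrix (Fin 2) (Fin 2) B, G * (X - 1) * G' = G * X * G' - 1 := fun X => by
    rw [Matrix.mul_sub, Matrix.sub_mul, mul_one, hgg]
  calc (N' σ - algebraMap O₀ B (χ σ) • 1) * (N' τ - 1)
      = (G * ((R σ).map F - algebraMap O₀ B (χ σ) • 1) * G') *
          (G * ((R τ).map F - 1) * G') := by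
        rw [hN', hN', eA, eB]
    _ = G * (((R σ).map F - algebraMap O₀ B (χ σ) • 1) * ((R τ).map F - 1)) * G' := by
        simp only [mul_assoc]
        rw [← mul_assoc G' G, hgg', one_mul]
    _ = 0 := by rw [h1, mul_zero, zero_mul]

end Fermat.Agent.Engine.TRep
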