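import Fermat.Agent.Engine.OrdTop.Bad
import Fermat.Agent.Engine.OrdTop.HeckeP

/-!
# The unit root on the classes killed by both norms

At level `M p`, on the part of the classes killed by both norms the unit root `u` squares to one:
a Frobenius is `u` modulo the kernel of reduction and `- w_p` modulo the kernel of reduction, and
the kernel has no vectors fixed by tame inertia.
-/

set_option autoImplicit false
set_option linter.unusedSectionVars false

noncomputable section

namespace Fermat.Agent.Engine.OrdTop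

open EigenRep ModularCurve TRep AlgebraicCurve Matrix OrdinaryT SemistableRed IsLocalRing HeckeModule

local notation "Ω" => AlgebraicClosure ℚ
local notation "GQ" => AlgebraicClosure ℚ ≃ₐ[ℚ] AlgebraicClosure ℚ

section Quotient

variable {N p : ℕ} [NeZero N] [Fact p.Prime] (I : RepInputs N p) (S : Finset ℕ)

/-- A Frobenius is the unit root modulo a stable subgroup containing `σ₀ y - y`. -/
theorem frobenius_sub_root_mem {n : ℕ} {A : ValuationSubring Ω} {σ₀ φF : GQ} {c : ℤ_[p]}
    (hc : c * ((epsilonPadic p σ₀ : ℤ_[p]) - 1) = 1) (hφ : φF ∈ A.decompositionSubgroup ℚ)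
    (W K : AddSubgroup (Vec I n)) (hgal : ∀ g, ∀ y ∈ W, vecGal I S n g y ∈ W)
    (hsmul : ∀ a : matAway I S, ∀ y ∈ W, a • y ∈ W)
    (hKD : ∀ g ∈ A.decompositionSubgroup ℚ, ∀ y ∈ K, vecGal I S n g y ∈ K)
    (hKI : ∀ y ∈ W, vecGal I S n σ₀ y - y ∈ K) {y₀ : Vec I n} (hy₀ : y₀ ∈ W) :
    vecGal I S n φF y₀ - awayRoot I S c σ₀ φF • y₀ ∈ K := by
  obtain ⟨y, hy, rfl⟩ : ∃ z ∈ W, vecGal I S n φF z = y₀ := ⟨_, hgal φF⁻¹ y₀ hy₀, by
    rw [← Module.End.mul_apply, ← map_mul, mul_inv_cancel, map_one, Module.End.one_apply]⟩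
  have hq : ∀ g y, vecGal I S n g (vecGal I S n g y) - awayTrace I S g • vecGal I S n g y +
      awayEps I S g • y = 0 := fun g y => by
    have h := LinearMap.congr_fun (quadraticAction_vecGal I S n g) y
    simpa only [LinearMap.add_apply, LinearMap.sub_apply, Module.End.mul_apply,
      LinearMap.smul_apply, Module.End.one_apply, LinearMap.zero_apply] using h
  set F := vecGal I S n φF with hF
  set G := vecGal I S n σ₀ with hG
  have e1 := hq (σ₀ * φF) y
  rw [map_mul, map_mul, Module.End.mul_apply] at e1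
  simp only [← hF, ← hG] at e1
  have a1 : F (G (F y)) - F (F y) ∈ K := by
    rw [← map_sub]; exact hKD φF hφ _ (hKI _ (hgal φF y hy))
  have a2 : G (F (G (F y))) - F (G (F y)) ∈ K := hKI _ (hgal φF _ (hgal σ₀ _ (hgal φF y hy)))
  have a3 : G (awayTrace I S (σ₀ * φF) • F y) - awayTrace I S (σ₀ * φF) • F y ∈ K :=
    hKI _ (hsmul _ _ (hgal φF y hy))
  rw [map_smul] at a3
  have b : F (F y) - awayTrace I S (σ₀ * φF) • F y + (awayEps I S σ₀ * awayEps I S φF) • y ∈ K := by
    have := sub_mem (sub_mem a3 a2) a1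
    convert this using 1
    linear_combination (norm := module) e1
  have hcl : algebraMap ℤ_[p] (matAway I S) c * (awayEps I S σ₀ - 1) = 1 := by
    rw [awayEps_apply, ← map_one (algebraMap ℤ_[p] (matAway I S)), ← map_sub, ← map_mul, hc, map_one]
  have e2 := hq φF y
  simp only [← hF] at e2
  have e3 : F (F y) - awayRoot I S c σ₀ φF • F y = algebraMap ℤ_[p] (matAway I S) c •
      (-(F (F y) - awayTrace I S (σ₀ * φF) • F y + (awayEps I S σ₀ * awayEps I S φF) • y)) := by
    have e4 : ((algebraMap ℤ_[p] (matAway I S) c * (awayEps I S σ₀ - 1)) - 1) • F (F y) = 0 := by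
      rw [hcl, sub_self, zero_smul]
    rw [awayRoot]
    linear_combination (norm := module)
      (algebraMap ℤ_[p] (matAway I S) c * awayEps I S σ₀) • e2 - e4
  rw [e3, algebraMap_smul_vec]
  exact nsmul_mem (neg_mem b) _

end Quotient

variable {M p : ℕ} [NeZero M] [NeZero p] [Fact p.Prime] (I : RepInputs (M * p) p) (S : Finset ℕ)
  {k : Type} [Field k] [CharP k p] (φ : matAway I S →+* k)
  (ρbar : GQ →* Matrix (Fin 2) (Fin 2) k)
  (htr : ∀ g, φ (awayTrace I S g) = (ρbar g).trace)
  (hdet : ∀ g, φ (awayEps I S g) = (ρbar g).det)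
  (hspan : Submodule.span k (Set.range ρbar) = ⊤)
  {A : ValuationSubring Ω}
  (hinertia : ∀ σ ∈ A.inertiaSubgroupIn ℚ, (ρbar σ).trace = 1 + (ρbar σ).det)
  (hmax : (RingHom.ker φ).IsMaximal)
  [CharP (ResidueField A) p] [IsAlgClosed (ResidueField A)]

include htr hdet hspan hinertia hmax in
/-- **The unit root squares to one on the new part.** -/
theorem exists_root_sq_multiplier (hA : A.LiesOverPrime p) (hp3 : 3 ≤ p) (hpM : ¬ p ∣ M)
    (hNS : ∀ q : ℕ, q.Prime → q ∣ M * p * p → q ∈ S) {σ₀ φF : GQ}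
    (hσ₀ : σ₀ ∈ A.inertiaSubgroupIn ℚ) (hφF : A.IsFrobeniusAt φF p) {c : ℤ_[p]}
    (hc : c * ((epsilonPadic p σ₀ : ℤ_[p]) - 1) = 1) (n : ℕ) :
    ∃ E : matAway I S, φ E ≠ 0 ∧ ∀ y : Vec I n, (∀ b, normMaps M p b (point I n y) = 0) →
      (E * (awayRoot I S c σ₀ φF * awayRoot I S c σ₀ φF - 1)) • y = 0 := by
  classical
  have hp : p.Prime := Fact.out
  rcases Nat.eq_zero_or_pos n with rfl | hn
  · refine ⟨1, by rw [map_one]; exact one_ne_zero, fun y _ => ?_⟩
    have : Subsingleton (ZMod (p ^ 0)) := inferInstanceAs (Subsingleton (ZMod 1))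
    exact Subsingleton.elim _ _
  have : NeZero (p ^ n) := ⟨pow_ne_zero n hp.ne_zero⟩
  let St : Setting A M p := ⟨hpM, hA, ⟨_, IgusaGenus.reductionFacts hpM hA⟩⟩
  set u := awayRoot I S c σ₀ φF with hu
  obtain ⟨E, hE, hEE, j, hj⟩ := exists_projector (redAway I S n) φ
  refine ⟨E, hE, fun y₀ hy₀ => ?_⟩
  have hEy : ∀ y : Vec I n, E • E • y = E • y := fun y => by
    rw [smul_smul, smul_vec_def, smul_vec_def, hEE]
  have hEkill : ∀ y : Vec I n, E • y = y → ∀ i ∈ RingHom.ker φ ^ j, i • y = 0 := fun y hy i hi => by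
    rw [← hy, smul_smul, smul_vec_def, hj i hi, zero_mulVec]
  -- the classes killed by both norms are stable under the algebra
  let Nn : AddSubgroup (Vec I n) := (newTors M p n).comap (point I n)
  have hNn : ∀ g, ∀ y ∈ Nn, vecGal I S n g y ∈ Nn := fun g y hy => by
    show point I n (vecGal I S n g y) ∈ newTors M p n
    rw [point_gal]; exact galois_mem_newTors g hy
  have hNnS : ∀ a : matAway I S, ∀ y ∈ Nn, a • y ∈ Nn := fun a y hy =>
    smul_mem_of_trace I S hNS Nn (fun g y hy => by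
      have h := LinearMap.congr_fun (quadraticAction_vecGal I S n g) (vecGal I S n g⁻¹ y)
      simp only [LinearMap.add_apply, LinearMap.sub_apply, Module.End.mul_apply,
        LinearMap.smul_apply, Module.End.one_apply, LinearMap.zero_apply] at h
      rw [← Module.End.mul_apply (vecGal I S n g) (vecGal I S n g⁻¹), ← map_mul, mul_inv_cancel,
        map_one, Module.End.one_apply] at h
      have e : awayTrace I S g • y = vecGal I S n g y + awayEps I S g • vecGal I S n g⁻¹ y := by
        linear_combination (norm := module) -h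
      rw [e, awayEps_smul]
      exact add_mem (hNn g y hy) (nsmul_mem (hNn _ y hy) _)) a hy
  -- the part of it
  let W : AddSubgroup (Vec I n) :=
    (DistribSMul.toAddMonoidHom (Vec I n) E - AddMonoidHom.id _).ker ⊓ Nn
  have hWmem : ∀ {y}, y ∈ W ↔ E • y = y ∧ y ∈ Nn := fun {y} => by
    simp [W, AddMonoidHom.mem_ker, sub_eq_zero]
  have hgal : ∀ g, ∀ y ∈ W, vecGal I S n g y ∈ W := fun g y hy =>
    hWmem.mpr ⟨by rw [← map_smul, (hWmem.mp hy).1], hNn g y (hWmem.mp hy).2⟩
  have hsmul : ∀ a : matAway I S, ∀ y ∈ W, a • y ∈ W := fun a y hy =>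
    hWmem.mpr ⟨by rw [smul_comm, (hWmem.mp hy).1], hNnS a y (hWmem.mp hy).2⟩
  let K : AddSubgroup (Vec I n) := (newKilled St (p ^ n)).comap (point I n)
  have hKmem : ∀ {y}, y ∈ K ↔ point I n y ∈ newKilled St (p ^ n) := fun {y} => Iff.rfl
  have hKD : ∀ g ∈ A.decompositionSubgroup ℚ, ∀ y ∈ K, vecGal I S n g y ∈ K := fun g hg y hy =>
    hKmem.mpr (by rw [point_gal]; exact smul_mem_newKilled St hg hy)
  have hKI : ∀ y ∈ W, vecGal I S n σ₀ y - y ∈ K := fun y _ =>
    hKmem.mpr (by
      rw [map_sub, point_gal]; exact smul_sub_mem_newKilled St hσ₀ (pow_smul_point I n y))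
  have hφD := hφF.mem_decompositionSubgroup
  -- `u ^ 2` is the identity modulo the kernel
  have hX : ∀ y ∈ W, u • u • y - y ∈ K := by
    intro y hy
    set F := vecGal I S n φF with hF
    have a1 : F y - u • y ∈ K := frobenius_sub_root_mem I S hc hφD W K hgal hsmul hKD hKI hy
    have a2 : F (u • y) - u • u • y ∈ K :=
      frobenius_sub_root_mem I S hc hφD W K hgal hsmul hKD hKI (hsmul u y hy)
    have a3 : F (F y) - F (u • y) ∈ K := by rw [← map_sub]; exact hKD φF hφD _ a1
    have hnew := (mem_newTors.mp (hWmem.mp hy).2 : _ ∧ ∀ b, normMaps M p b (point I n y) = 0)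
    have hpn : p ^ n ≠ 0 := pow_ne_zero n hp.ne_zero
    have b1 := frobenius_add_w_mem_newKilled St hφF hpn hnew.1 hnew.2
    have hw : wMap St (point I n y) ∈ newTors M p n := wMap_mem_newTors St (hWmem.mp hy).2
    have b2 := frobenius_add_w_mem_newKilled St hφF hpn (mem_newTors.mp hw).1 (mem_newTors.mp hw).2
    change φF • wMap St (point I n y) + wMap St (wMap St (point I n y)) ∈ newKilled St (p ^ n) at b2
    change φF • point I n y + wMap St (point I n y) ∈ newKilled St (p ^ n) at b1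
    rw [wMap_wMap] at b2
    have b3 := smul_mem_newKilled St hφD b1
    rw [smul_add] at b3
    have b : F (F y) - y ∈ K := hKmem.mpr (by
      rw [map_sub, hF, point_gal, point_gal]
      have h := sub_mem b3 b2
      convert h using 1
      abel)
    have h := sub_mem b (add_mem a3 a2)
    convert h using 1
    abel
  have hepsσ : ¬ (p : ℤ) ∣ (epsilonNat p n σ₀ : ℤ) - 1 := fun hd => by
    have h1 := congrArg (ZMod.castHom (dvd_pow_self p hn.ne') (ZMod p))
      (congrArg (PadicInt.toZModPow n) hc)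
    rw [map_mul (PadicInt.toZModPow n), map_sub (PadicInt.toZModPow n), map_one, map_one, map_mul,
      map_sub, map_one, ← ZMod.natCast_zmod_val (PadicInt.toZModPow n (epsilonPadic p σ₀ : ℤ_[p])),
      map_natCast] at h1
    rw [← ZMod.intCast_zmod_eq_zero_iff_dvd, Int.cast_sub, Int.cast_natCast, Int.cast_one] at hd
    change ((epsilonNat p n σ₀ : ℕ) : ZMod p) - 1 = 0 at hd
    change _ * (((epsilonNat p n σ₀ : ℕ) : ZMod p) - 1) = 1 at h1
    rw [hd, mul_zero] at h1
    exact zero_ne_one h1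
  -- no fixed vectors
  have hfree : ∀ y ∈ W, y ∈ K → vecGal I S n σ₀ y = y → y = 0 := by
    intro y hy hyK hfix
    by_contra hy0
    have hn' := hn.ne'
    have hno : ∃ g, (ρbar g).trace ≠ (ρbar g).det + 1 := by
      by_contra h
      push Not at h
      obtain ⟨s, hs, hcs⟩ := hasTameGenerator (p := p) (by omega) hA hn'
      have hdet' : ∀ g, (ρbar g).det = ((epsilonNat p n g : ℤ) : k) := fun g => by
        rw [← hdet, phi_awayEps I S φ hn']
      exact no_residual_char ρbar hspan (tbar := fun g => (ρbar g).trace) (fun _ => rfl) hdet' hcs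
        (by rw [← hdet']; exact hinertia s hs)
        ⟨fun _ => 1, fun _ _ => (one_mul 1).symm, fun g => ⟨one_ne_zero, by
          simp only; rw [h g, hdet' g]; ring⟩⟩
    obtain ⟨g₀, hg₀⟩ := hno
    obtain ⟨l, hl, hlε, -⟩ := exists_away_trace I S φ hmax hy0 (hEkill y (hWmem.mp hy).1) hn' g₀
    have : Fact (l.1 : ℕ).Prime := ⟨l.1.2⟩
    let V₀ := W.map (point I n)
    have : Finite V₀ := (Set.Finite.image _ (Set.toFinite (W : Set (Vec I n)))).to_subtype
    refine hy0 (point_injective I n ((core_new St V₀ ?_ (ℓ := l.1) ?_ ?_ ?_ hσ₀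
      (exists_moves_root hn' hepsσ) (AddSubgroup.mem_map_of_mem _ hy) hyK (pow_smul_point I n y)
      ?_).trans (map_zero _).symm))
    · rintro _ ⟨z, hz, rfl⟩
      exact (mem_newTors.mp (hWmem.mp hz).2).2
    · exact fun h => l.2 (Finset.mem_coe.mpr (hNS _ l.1.2 (h.mul_right p)))
    · rintro _ ⟨z, hz, rfl⟩
      exact ⟨awayGen I S l • z, hsmul _ z hz, point_hecke I S n l.1 z⟩
    · rintro _ ⟨z, hz, rfl⟩ hTz
      rw [eq_zero_of_smul I S φ hmax (hEkill z (hWmem.mp hz).1)
        (b := awayGen I S l - (((l.1 : ℕ) + 1 : ℕ) : matAway I S)) ?_ ?_, map_zero]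
      · rw [map_sub, map_natCast, sub_ne_zero, hl, htr]
        push_cast
        rw [← hlε, hdet]
        exact hg₀
      · refine point_injective I n ?_
        rw [sub_smul, Nat.cast_smul_eq_nsmul, map_sub, map_nsmul, map_zero, sub_eq_zero]
        exact (point_hecke I S n l.1 z).trans hTz
    · rw [← point_gal I S, hfix]
  -- conclude
  let X : Module.End (matAway I S) (Vec I n) := (u * u - 1) • 1
  have hXa : ∀ y, X y = u • u • y - y := fun y => by simp [X, sub_smul, mul_smul]
  have hEy₀ : E • y₀ ∈ W := hWmem.mpr ⟨hEy y₀, hNnS E y₀ (mem_newTors.mpr ⟨pow_smul_point I n y₀, hy₀⟩)⟩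
  have hzero : X (E • y₀) = 0 := by
    by_contra h0
    refine false_of_fixed_point_free I S φ ρbar htr hdet hspan hinertia hmax hNS hn.ne' hσ₀ hepsσ
      (W.map X.toAddMonoidHom) ?_ ?_ (y := X (E • y₀)) (AddSubgroup.mem_map_of_mem X.toAddMonoidHom hEy₀)
      h0 (j := j) (fun i hi => ?_)
    · rintro g _ ⟨z, hz, rfl⟩
      refine ⟨vecGal I S n g z, hgal g z hz, ?_⟩
      show X (vecGal I S n g z) = vecGal I S n g (X z)
      rw [hXa, hXa, map_sub, map_smul, map_smul]
    · rintro _ ⟨z, hz, rfl⟩ hfix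
      refine hfree _ ?_ ?_ hfix
      · show X z ∈ W
        rw [hXa]; exact sub_mem (hsmul u _ (hsmul u z hz)) hz
      · show X z ∈ K
        rw [hXa]; exact hX z hz
    · rw [← map_smul, hEkill _ (hEy y₀) i hi, map_zero]
  rw [mul_comm E (awayRoot I S c σ₀ φF * awayRoot I S c σ₀ φF - 1), mul_smul]
  exact hzero

end Fermat.Agent.Engine.OrdTop
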