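import Mathlib

/-!
# Algebra for the part of a finite module at a residual system

An idempotent cutting out the part, vectors killed by the maximal ideal, and fixed points of a
group acting unipotently.
-/

set_option autoImplicit false

noncomputable section

namespace Fermat.Agent.Engine.OrdTop

variable {R : Type*} [CommRing R]

/-- An element outside a maximal ideal whose image is idempotent and killed by a power of it. -/
theorem exists_projector {Q : Type*} [Ring Q] [Finite Q] (f : R →+* Q) {k : Type*} [Field k]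
    (φ : R →+* k) :
    ∃ A : R, φ A ≠ 0 ∧ f (A * A) = f A ∧ ∃ N : ℕ, ∀ i ∈ RingHom.ker φ ^ N, f (i * A) = 0 := by
  classical
  by_cases hle : RingHom.ker f ≤ RingHom.ker φ
  · set mk := Ideal.Quotient.mk (RingHom.ker f) with hmk
    have : Finite (R ⧸ RingHom.ker f) := Finite.of_injective _ (RingHom.kerLift_injective f)
    let φ' : R ⧸ RingHom.ker f →+* k :=
      Ideal.Quotient.lift (RingHom.ker f) φ fun a ha => RingHom.mem_ker.mp (hle ha)
    set P := (RingHom.ker φ).map mk with hP
    have hP' : ∀ x ∈ P, φ' x = 0 := fun x hx => by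
      obtain ⟨i, hi, rfl⟩ := (Ideal.mem_map_iff_of_surjective _ Ideal.Quotient.mk_surjective).mp hx
      exact hi
    obtain ⟨a, b, hab, he⟩ := Finite.exists_ne_map_eq_of_infinite fun n : ℕ => P ^ n
    wlog hlt : a < b generalizing a b
    · exact this b a hab.symm he.symm (lt_of_le_of_ne (not_lt.mp hlt) hab.symm)
    have hstep : P ^ (a + 1) = P ^ (a + 1 + 1) := by
      refine le_antisymm ?_ (Ideal.pow_le_pow_right (by omega))
      calc P ^ (a + 1) ≤ P ^ (b + 1) := by rw [pow_succ, he, ← pow_succ]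
        _ ≤ P ^ (a + 1 + 1) := Ideal.pow_le_pow_right (by omega)
    have hall : ∀ j, P ^ (a + 1 + j) = P ^ (a + 1) := by
      intro j
      induction j with
      | zero => rfl
      | succ j ih => rw [← add_assoc, pow_succ, ih, ← pow_succ]; exact hstep.symm
    obtain ⟨e, he2, hspan⟩ := (Ideal.isIdempotentElem_iff_of_fg (P ^ (a + 1))
      (IsNoetherian.noetherian _)).mp (by
        show P ^ (a + 1) * P ^ (a + 1) = P ^ (a + 1)
        rw [← pow_add]; exact hall (a + 1))
    have heP : φ' e = 0 := hP' _ (Ideal.pow_le_self (by omega) (hspan ▸ Submodule.mem_span_singleton_self e))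
    obtain ⟨E, hE⟩ := Ideal.Quotient.mk_surjective (1 - e)
    have hkl : ∀ x : R, f x = RingHom.kerLift f (mk x) := fun x => (RingHom.kerLift_mk f x).symm
    refine ⟨E, ?_, ?_, a + 1, fun i hi => ?_⟩
    · rw [show φ E = φ' (mk E) from rfl, hE, map_sub, map_one, heP, sub_zero]
      exact one_ne_zero
    · rw [hkl, hkl, map_mul, hE]
      congr 1
      linear_combination he2.eq
    · have hi' : mk i ∈ P ^ (a + 1) := by rw [hP, ← Ideal.map_pow]; exact Ideal.mem_map_of_mem _ hi
      rw [hspan, Submodule.mem_span_singleton] at hi'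
      obtain ⟨c, hc⟩ := hi'
      rw [hkl, map_mul, hE, ← hc, smul_eq_mul,
        show c * e * (1 - e) = c * (e - e * e) by ring, he2.eq, sub_self, mul_zero, map_zero]
  · obtain ⟨A, hA, hAφ⟩ := SetLike.not_le_iff_exists.mp hle
    exact ⟨A, hAφ, by rw [map_mul, hA, mul_zero], 0, fun i _ => by rw [map_mul, hA, mul_zero]⟩

variable {M : Type*} [AddCommGroup M] [Module R M]

/-- A nonzero vector killed by a power of an ideal gives one killed by the ideal. -/
theorem exists_killed (I : Ideal R) (W : AddSubgroup M) (hW : ∀ (a : R), ∀ y ∈ W, a • y ∈ W) :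
    ∀ (N : ℕ) (y : M), y ∈ W → y ≠ 0 → (∀ i ∈ I ^ N, i • y = 0) →
      ∃ x ∈ W, x ≠ 0 ∧ ∀ i ∈ I, i • x = 0
  | 0, y, _, hy, h => absurd (by simpa using h 1 (by simp)) hy
  | N + 1, y, hyW, hy, h => by
    by_cases hc : ∀ i ∈ I, i • y = 0
    · exact ⟨y, hyW, hy, hc⟩
    · push Not at hc
      obtain ⟨i, hi, hiy⟩ := hc
      refine exists_killed I W hW N (i • y) (hW i y hyW) hiy fun j hj => ?_
      rw [smul_smul]
      exact h _ (by rw [pow_succ]; exact Ideal.mul_mem_mul hj hi)

/-- A group acting unipotently on a nonzero finite group killed by `p` has a fixed vector. -/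
theorem exists_fixed {p : ℕ} [Fact p.Prime] {H : Type*} [Group H] (ρ : H →* Module.End R M)
    (K : AddSubgroup M) [Finite K] (hK : ∀ h, ∀ z ∈ K, ρ h z ∈ K) (hp : ∀ z ∈ K, p • z = 0)
    (huni : ∀ h, ∀ z ∈ K, ρ h (ρ h z) - 2 • ρ h z + z = 0) (hne : K ≠ ⊥) :
    ∃ b ∈ K, b ≠ 0 ∧ ∀ h, ρ h b = b := by
  classical
  have hinv : ∀ h (z : M), ρ h⁻¹ (ρ h z) = z := fun h z => by
    rw [← Module.End.mul_apply, ← map_mul, inv_mul_cancel, map_one, Module.End.one_apply]
  let π : H →* Equiv.Perm K :=
    { toFun := fun h => ⟨fun z => ⟨ρ h z, hK h z z.2⟩, fun z => ⟨ρ h⁻¹ z, hK h⁻¹ z z.2⟩,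
        fun z => Subtype.ext (hinv h z), fun z => Subtype.ext (by
          have := hinv h⁻¹ (z : M); rwa [inv_inv] at this)⟩
      map_one' := by ext z; simp
      map_mul' := fun a b => by ext z; simp }
  have hpg : IsPGroup p π.range := by
    rintro ⟨_, h, rfl⟩
    refine ⟨1, Subtype.ext ?_⟩
    rw [pow_one, Subgroup.coe_pow, Subgroup.coe_one, ← map_pow]
    refine Equiv.ext fun z => Subtype.ext ?_
    show ρ (h ^ p) (z : M) = (z : M)
    have key : ∀ j : ℕ, ρ (h ^ j) (z : M) = (z : M) + j • (ρ h z - z) := by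
      intro j
      induction j with
      | zero => simp
      | succ j ih =>
        rw [pow_succ', map_mul, Module.End.mul_apply, ih, map_add, map_nsmul, map_sub,
          show ρ h (ρ h z) - ρ h z = ρ h z - z by
            rw [← sub_eq_zero, ← huni h z z.2, two_nsmul]; abel, succ_nsmul]
        abel
    rw [key, hp _ (sub_mem (hK h z z.2) z.2), add_zero]
  obtain ⟨z, hz, hz0⟩ : ∃ z ∈ K, z ≠ 0 := by
    by_contra hc
    push Not at hc
    exact hne (eq_bot_iff.mpr fun z hz => AddSubgroup.mem_bot.mpr (hc z hz))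
  have hdvd : p ∣ Nat.card K := by
    have h1 : addOrderOf (⟨z, hz⟩ : K) = p :=
      addOrderOf_eq_prime (Subtype.ext (hp z hz)) (fun e => hz0 (congrArg Subtype.val e))
    exact h1 ▸ addOrderOf_dvd_natCard _
  obtain ⟨b, hb, hb0⟩ := hpg.exists_fixed_point_of_prime_dvd_card_of_fixed_point K hdvd
    (a := (0 : K)) fun ⟨_, h, he⟩ => by
      subst he
      exact Subtype.ext (map_zero (ρ h))
  exact ⟨b, b.2, fun e => hb0 (Subtype.ext e).symm, fun h =>
    congrArg Subtype.val (hb ⟨π h, h, rfl⟩)⟩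

end Fermat.Agent.Engine.OrdTop
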