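import Fermat.Agent.Engine.TRep.Tame
import Fermat.Agent.Engine.Quadratic
import Fermat.Agent.OrdinaryT.Torsion

/-!
# The torsion of level `pⁿ` as a module over the Hecke algebra of matrices

Galois, a Hecke operator and the translation back to points of `J₀(N)`.
-/

set_option autoImplicit false
set_option linter.unusedSectionVars false

noncomputable section

namespace Fermat.Agent.Engine.OrdTop

open EigenRep ModularCurve TRep AlgebraicCurve Matrix

local notation "GQ" => AlgebraicClosure ℚ ≃ₐ[ℚ] AlgebraicClosure ℚ

variable {N p : ℕ} [NeZero N] [Fact p.Prime] (I : RepInputs N p) (S : Finset ℕ)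

/-- The Hecke matrices commute. -/
theorem heckeMat_commute (l l' : Nat.Primes) :
    Commute (heckeMat I.model l) (heckeMat I.model l') := by
  have h := congrArg (fun X : Matrix (Fin I.model.d) (Fin I.model.d) ℤ =>
    X.map (Int.castRingHom ℤ_[p])) (I.model.comm l l')
  simp only [Matrix.map_mul] at h
  exact h

/-- The Hecke algebra of matrices is commutative. -/
instance isMulCommutative_matAway : IsMulCommutative (matAway I S) :=
  Algebra.isMulCommutative_adjoin ℤ_[p] fun _ hx _ hy => by
    obtain ⟨l, -, rfl⟩ := hx
    obtain ⟨l', -, rfl⟩ := hy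
    exact heckeMat_commute I l l'

/-- The Hecke algebra of matrices as a commutative ring. -/
instance commRing_matAway : CommRing (matAway I S) :=
  { (inferInstance : Ring (matAway I S)) with
    mul_comm := fun a b => IsMulCommutative.is_comm.comm a b }

/-- Vectors modulo `pⁿ`. -/
abbrev Vec (n : ℕ) : Type := Fin I.model.d → ZMod (p ^ n)

/-- Reduction of the Hecke algebra of matrices. -/
def redAway (n : ℕ) : matAway I S →+* Matrix (Fin I.model.d) (Fin I.model.d) (ZMod (p ^ n)) :=
  (matMod p I.model.d n).comp (matAway I S).val.toRingHom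

/-- The torsion vectors as a module over the Hecke algebra of matrices. -/
instance moduleVec (n : ℕ) : Module (matAway I S) (Vec I n) :=
  { smul := fun a v => redAway I S n a *ᵥ v
    one_smul := fun v => show redAway I S n 1 *ᵥ v = v by rw [map_one, one_mulVec]
    mul_smul := fun a b v => show redAway I S n (a * b) *ᵥ v = redAway I S n a *ᵥ (redAway I S n b *ᵥ v) by
      rw [map_mul, mulVec_mulVec]
    smul_zero := fun a => mulVec_zero _
    smul_add := fun a v w => mulVec_add _ v w
    add_smul := fun a b v => show redAway I S n (a + b) *ᵥ v = _ by rw [map_add, add_mulVec]; rfl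
    zero_smul := fun v => show redAway I S n 0 *ᵥ v = 0 by rw [map_zero, zero_mulVec] }

variable {I S}

/-- Shortcuts for instance search on the vectors of level `n`. -/
instance smulVec (n : ℕ) : SMul (matAway I S) (Vec I n) := (moduleVec I S n).toSMul

/-- Shortcut for instance search on the vectors of level `n`. -/
instance mulActionVec (n : ℕ) : MulAction (matAway I S) (Vec I n) :=
  (moduleVec I S n).toDistribMulAction.toMulAction


/-- The action on torsion vectors is by reduced matrices. -/
theorem smul_vec_def {n : ℕ} (a : matAway I S) (v : Vec I n) :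
    a • v = redAway I S n a *ᵥ (v : Fin I.model.d → ZMod (p ^ n)) := rfl

variable (I S)

/-- An endomorphism of the vectors from a matrix commuting with the algebra. -/
def endOf (n : ℕ) (X : Matrix (Fin I.model.d) (Fin I.model.d) ℤ_[p])
    (hX : ∀ a : matAway I S, Commute X (a : Matrix (Fin I.model.d) (Fin I.model.d) ℤ_[p])) :
    Module.End (matAway I S) (Vec I n) where
  toFun v := matMod p I.model.d n X *ᵥ v
  map_add' v w := mulVec_add _ v w
  map_smul' a v := by
    show matMod p I.model.d n X *ᵥ (redAway I S n a *ᵥ v) =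
      redAway I S n a *ᵥ (matMod p I.model.d n X *ᵥ v)
    rw [mulVec_mulVec, mulVec_mulVec]
    exact congrArg (· *ᵥ (v : Fin I.model.d → ZMod (p ^ n)))
      (((matMod p I.model.d n).map_mul X _).symm.trans
        ((congrArg _ (hX a).eq).trans ((matMod p I.model.d n).map_mul _ X)))

/-- Galois on the vectors. -/
def vecGal (n : ℕ) : GQ →* Module.End (matAway I S) (Vec I n) where
  toFun g := endOf I S n (galMat I.model g) fun a => galMat_commute_mem I S g a.2
  map_one' := LinearMap.ext fun v => by
    show matMod p I.model.d n (galMat I.model 1) *ᵥ v = v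
    rw [map_one, map_one]; exact one_mulVec v
  map_mul' g h := LinearMap.ext fun v => by
    show matMod p I.model.d n (galMat I.model (g * h)) *ᵥ v = matMod p I.model.d n (galMat I.model g) *ᵥ
      (matMod p I.model.d n (galMat I.model h) *ᵥ v)
    rw [map_mul, map_mul, mulVec_mulVec]

/-- A Hecke operator on the vectors. -/
def vecHecke (n : ℕ) (l : Nat.Primes) : Module.End (matAway I S) (Vec I n) :=
  endOf I S n (heckeMat I.model l) fun a => by
    obtain ⟨a, ha⟩ := a
    induction ha using Algebra.adjoin_induction with
    | mem x hx =>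
        obtain ⟨l', -, rfl⟩ := hx
        exact heckeMat_commute I l l'
    | algebraMap r => exact Algebra.commute_algebraMap_right r _
    | add x y _ _ h₁ h₂ => exact h₁.add_right h₂
    | mul x y _ _ h₁ h₂ => exact h₁.mul_right h₂

/-- The trace of an element, in the algebra. -/
def awayTrace (g : GQ) : matAway I S := ⟨tMat I g, tMat_mem I S g⟩

/-- The cyclotomic character, in the algebra. -/
def awayEps : GQ →* matAway I S :=
  (algebraMap ℤ_[p] (matAway I S)).toMonoidHom.comp
    ((Units.coeHom ℤ_[p]).comp (epsilonPadic p))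

/-- The cyclotomic element is a scalar. -/
theorem awayEps_apply (g : GQ) :
    awayEps I S g = algebraMap ℤ_[p] (matAway I S) (epsilonPadic p g : ℤ_[p]) := rfl

/-- Galois on the torsion vectors satisfies the quadratic relation. -/
theorem quadraticAction_vecGal (n : ℕ) :
    QuadraticAction (vecGal I S n) (awayTrace I S) (awayEps I S) := by
  intro g
  refine LinearMap.ext fun v => ?_
  have h := congrArg (fun X => matMod p I.model.d n X *ᵥ (v : Fin I.model.d → ZMod (p ^ n)))
    (galMat_quadratic I g)
  simp only [map_add, map_sub, map_mul, map_zero, add_mulVec, sub_mulVec, ← mulVec_mulVec,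
    zero_mulVec] at h
  refine Eq.trans ?_ h
  simp only [LinearMap.add_apply, LinearMap.sub_apply, Module.End.mul_apply,
    LinearMap.smul_apply, Module.End.one_apply, awayEps_apply, Algebra.algebraMap_eq_smul_one]
  rfl

/-- Scalars act through their residues modulo `p ^ n`. -/
theorem algebraMap_smul_vec (n : ℕ) (r : ℤ_[p]) (v : Vec I n) :
    algebraMap ℤ_[p] (matAway I S) r • v = (PadicInt.toZModPow n r).val • v := by
  have : NeZero (p ^ n) := ⟨pow_ne_zero n (Fact.out : p.Prime).ne_zero⟩
  show matMod p I.model.d n (algebraMap ℤ_[p] _ r) *ᵥ v = _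
  rw [Matrix.algebraMap_eq_diagonal]
  funext i
  show (matMod p I.model.d n (Matrix.diagonal _) *ᵥ v) i = (PadicInt.toZModPow n r).val • v i
  rw [matMod, RingHom.mapMatrix_apply, Matrix.diagonal_map (map_zero _), mulVec_diagonal,
    nsmul_eq_mul, ZMod.natCast_zmod_val]
  rfl

/-- The cyclotomic element acts as the cyclotomic character modulo `p ^ n`. -/
theorem awayEps_smul (n : ℕ) (g : GQ) (v : Vec I n) :
    awayEps I S g • v = epsilonNat p n g • v := algebraMap_smul_vec I S n _ v

/-- The point of a vector. -/
def point (n : ℕ) : Vec I n →+ JZero N :=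
  (AddSubgroup.subtype _).comp (I.model.e n).symm.toAddMonoidHom

/-- The translation to points is injective. -/
theorem point_injective (n : ℕ) : Function.Injective (point I n) :=
  Subtype.val_injective.comp (I.model.e n).symm.injective

/-- The points are killed by `p ^ n`. -/
theorem pow_smul_point (n : ℕ) (v : Vec I n) : p ^ n • point I n v = 0 := by
  have hv := Pic0.mem_torsion.mp ((I.model.e n).symm v).2
  rw [natCast_zsmul] at hv
  exact hv

/-- The translation to points is Galois equivariant. -/
theorem point_gal (n : ℕ) (g : GQ) (v : Vec I n) :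
    point I n (vecGal I S n g v) = g • point I n v := by
  obtain ⟨x, rfl⟩ := (I.model.e n).surjective v
  show (((I.model.e n).symm (matMod p I.model.d n (galMat I.model g) *ᵥ I.model.e n x) :
    _) : JZero N) = g • (((I.model.e n).symm (I.model.e n x) : _) : JZero N)
  rw [matMod_galMat, levelMat_mulVec, AddEquiv.symm_apply_apply, AddEquiv.symm_apply_apply,
    JZero.coe_torsionGaloisRep_apply]

/-- The translation to points is Hecke equivariant. -/
theorem point_hecke (n : ℕ) (l : Nat.Primes) (v : Vec I n) :
    point I n (vecHecke I S n l v) = heckeOperatorBar N l (point I n v) := by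
  obtain ⟨x, rfl⟩ := (I.model.e n).surjective v
  show (((I.model.e n).symm (matMod p I.model.d n (heckeMat I.model l) *ᵥ I.model.e n x) :
    _) : JZero N) = heckeOperatorBar N l (((I.model.e n).symm (I.model.e n x) : _) : JZero N)
  rw [hecke_mulVec, AddEquiv.symm_apply_apply, AddEquiv.symm_apply_apply]
  rfl

/-- Every trace acts as a Hecke operator of a prime outside `S`. -/
theorem exists_trace_prime (n : ℕ) (g : GQ) :
    ∃ l : Nat.Primes, ∀ v : Vec I n,
      point I n (awayTrace I S g • v) = heckeOperatorBar N l (point I n v) := by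
  obtain ⟨ℓ, hℓ, -, hd, A, hA, σ, hσ, h₁, h₂⟩ := exists_frobenius_congr I n g S
  refine ⟨⟨ℓ, hℓ⟩, fun v => ?_⟩
  refine Eq.trans (congrArg (point I n) ?_) (point_hecke I S n _ v)
  show matMod p I.model.d n (tMat I g) *ᵥ v = matMod p I.model.d n (heckeMat I.model ⟨ℓ, hℓ⟩) *ᵥ v
  rw [matMod_tMat_eq I h₁ h₂, tMat_frobenius I hℓ hd hA hσ]

/-- An additive subgroup stable under Galois and the traces is stable under the algebra. -/
theorem smul_mem_of_trace (hNS : ∀ q : ℕ, q.Prime → q ∣ N * p → q ∈ S) {n : ℕ}
    (W : AddSubgroup (Vec I n)) (hW : ∀ g, ∀ y ∈ W, awayTrace I S g • y ∈ W)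
    (a : matAway I S) {y : Vec I n} (hy : y ∈ W) : a • y ∈ W := by
  obtain ⟨a, ha⟩ := a
  induction ha using Algebra.adjoin_induction generalizing y with
  | mem x hx =>
      obtain ⟨l, hl, rfl⟩ := hx
      have hd : ¬ (l : ℕ) ∣ N * p := fun h => hl (hNS l l.2 h)
      obtain ⟨A, hA⟩ := Frobenius.exists_liesOverPrime (AlgebraicClosure ℚ) l.2
      obtain ⟨σ, hσ⟩ := Frobenius.exists_isFrobeniusAt_qbar l.2 hA
      have h := hW σ y hy
      have e : awayTrace I S σ = ⟨heckeMat I.model l, heckeMat_mem I S l hl⟩ :=
        Subtype.ext (tMat_frobenius I l.2 hd hA hσ)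
      rwa [e] at h
  | algebraMap r =>
      show algebraMap ℤ_[p] (matAway I S) r • y ∈ W
      rw [algebraMap_smul_vec]
      exact nsmul_mem hy _
  | add x z hx hz h₁ h₂ =>
      show ((⟨x, hx⟩ : matAway I S) + ⟨z, hz⟩) • y ∈ W
      rw [add_smul]
      exact add_mem (h₁ hy) (h₂ hy)
  | mul x z hx hz h₁ h₂ =>
      show ((⟨x, hx⟩ : matAway I S) * ⟨z, hz⟩) • y ∈ W
      rw [mul_smul]
      exact h₁ (h₂ hy)

end Fermat.Agent.Engine.OrdTop
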