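import Fermat.Agent.Engine.OrdTop.Scalar
import Fermat.Agent.Engine.OrdTop.Tools
import Fermat.Agent.Engine.OrdTop.Vectors
import Fermat.Agent.OrdinaryT.Supersingular
import Fermat.Agent.IgusaGenus.Main
import Fermat.Agent.LocalRingP.CondAtP

/-!
# The ordinary identity on the part at a residual system

For a residual system with absolutely irreducible representation `ρ̄` whose trace on inertia at
`p ∤ N` is `1 + det`, some element of the Hecke algebra outside the maximal ideal multiplies
`(σ - ε σ) (τ - 1)` to zero modulo `pⁿ`, for all `σ, τ` in inertia.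
-/

set_option autoImplicit false
set_option linter.unusedSectionVars false

noncomputable section

namespace Fermat.Agent.Engine.OrdTop

open EigenRep ModularCurve TRep AlgebraicCurve Matrix OrdinaryT SemistableRed IsLocalRing

local notation "Ω" => AlgebraicClosure ℚ
local notation "GQ" => AlgebraicClosure ℚ ≃ₐ[ℚ] AlgebraicClosure ℚ

variable {N p : ℕ} [NeZero N] [Fact p.Prime] (I : RepInputs N p) (S : Finset ℕ)
  {k : Type} [Field k] [CharP k p] (φ : matAway I S →+* k)

/-- The character on scalars, through the residues modulo `p ^ n`. -/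
theorem phi_algebraMap_eq_natCast {n : ℕ} (hn : n ≠ 0) (r : ℤ_[p]) :
    φ (algebraMap ℤ_[p] (matAway I S) r) = ((PadicInt.toZModPow n r).val : k) := by
  have h : r - ((PadicInt.toZModPow n r).val : ℤ_[p]) ∈ RingHom.ker (PadicInt.toZModPow n) := by
    have : NeZero (p ^ n) := ⟨pow_ne_zero n (Fact.out : p.Prime).ne_zero⟩
    rw [RingHom.mem_ker, map_sub, map_natCast, ZMod.natCast_zmod_val, sub_self]
  rw [PadicInt.ker_toZModPow, Ideal.mem_span_singleton] at h
  obtain ⟨c, hc⟩ := h
  have h' := congrArg (fun x => φ (algebraMap ℤ_[p] (matAway I S) x)) hc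
  simp only [map_sub, map_natCast, map_mul, map_pow, CharP.cast_eq_zero, zero_pow hn, zero_mul,
    sub_eq_zero] at h'
  exact h'

variable (ρbar : GQ →* Matrix (Fin 2) (Fin 2) k)
  (htr : ∀ g, φ (awayTrace I S g) = (ρbar g).trace)
  (hdet : ∀ g, φ (awayEps I S g) = (ρbar g).det)
  (hspan : Submodule.span k (Set.range ρbar) = ⊤)
  {A : ValuationSubring Ω}
  (hinertia : ∀ σ ∈ A.inertiaSubgroupIn ℚ, (ρbar σ).trace = 1 + (ρbar σ).det)
  (hmax : (RingHom.ker φ).IsMaximal)

include htr hdet hinertia in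
/-- On vectors killed by the ideal, inertia satisfies `(σ - 1) (σ - ε) = 0`. -/
theorem inertia_relation {n : ℕ} {σ : GQ} (hσ : σ ∈ A.inertiaSubgroupIn ℚ) {y : Vec I n}
    (hy : ∀ a ∈ RingHom.ker φ, a • y = 0) :
    vecGal I S n σ (vecGal I S n σ y) - vecGal I S n σ y - awayEps I S σ • vecGal I S n σ y +
      awayEps I S σ • y = 0 := by
  have h := LinearMap.congr_fun (quadraticAction_vecGal I S n σ) y
  simp only [LinearMap.add_apply, LinearMap.sub_apply, Module.End.mul_apply,
    LinearMap.smul_apply, Module.End.one_apply, LinearMap.zero_apply] at h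
  have hk : (awayTrace I S σ - 1 - awayEps I S σ) • vecGal I S n σ y = 0 := by
    rw [← map_smul, hy _ (RingHom.mem_ker.mpr (by
      rw [map_sub, map_sub, map_one, htr, hdet, hinertia σ hσ]; ring)), map_zero]
  linear_combination (norm := module) h + hk

/-- Galois preserves the vectors killed by the kernel of the character. -/
theorem vecGal_killed {n : ℕ} (g : GQ) {y : Vec I n} (hy : ∀ a ∈ RingHom.ker φ, a • y = 0) :
    ∀ a ∈ RingHom.ker φ, a • vecGal I S n g y = 0 := fun a ha => by
  rw [← map_smul, hy a ha, map_zero]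

include htr hdet hspan hinertia hmax in
/-- No nonzero stable subgroup of killed vectors is without fixed vectors of a tame element. -/
theorem false_of_fixed_point_free (hNS : ∀ q : ℕ, q.Prime → q ∣ N * p → q ∈ S) {n : ℕ} (hn : n ≠ 0)
    {σ : GQ} (hσ : σ ∈ A.inertiaSubgroupIn ℚ) (hχ : ¬ (p : ℤ) ∣ (epsilonNat p n σ : ℤ) - 1)
    (W : AddSubgroup (Vec I n)) (hW : ∀ g, ∀ y ∈ W, vecGal I S n g y ∈ W)
    (hfix : ∀ y ∈ W, vecGal I S n σ y = y → y = 0) {y : Vec I n} (hyW : y ∈ W) (hy0 : y ≠ 0)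
    {j : ℕ} (hkill : ∀ i ∈ RingHom.ker φ ^ j, i • y = 0) : False := by
  have htW : ∀ g, ∀ y ∈ W, awayTrace I S g • y ∈ W := fun g y hy => by
    have hy' := hW g⁻¹ y hy
    have h := LinearMap.congr_fun (quadraticAction_vecGal I S n g) (vecGal I S n g⁻¹ y)
    simp only [LinearMap.add_apply, LinearMap.sub_apply, Module.End.mul_apply,
      LinearMap.smul_apply, Module.End.one_apply, LinearMap.zero_apply] at h
    rw [← Module.End.mul_apply (vecGal I S n g) (vecGal I S n g⁻¹), ← map_mul, mul_inv_cancel,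
      map_one, Module.End.one_apply] at h
    have e : awayTrace I S g • y = vecGal I S n g y + awayEps I S g • vecGal I S n g⁻¹ y := by
      linear_combination (norm := module) -h
    rw [e, awayEps_smul]
    exact add_mem (hW g y hy) (nsmul_mem hy' _)
  obtain ⟨x, hxW, hx0, hxk⟩ := exists_killed (RingHom.ker φ) W
    (fun a y hy => smul_mem_of_trace I S hNS W htW a hy) j y hyW hy0 hkill
  refine false_of_scalar (quadraticAction_vecGal I S n) φ hmax ρbar htr hdet hspan hx0 hxk σ
    (awayEps I S σ) 1 ?_ (by rw [map_one, mul_one]) ?_ fun g => ?_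
  · rw [map_one, htr, hdet, hinertia σ hσ, add_comm]
  · rw [map_one, awayEps_apply, phi_algebraMap_eq_natCast I S φ hn]
    intro h
    refine hχ ((CharP.intCast_eq_zero_iff k p _).mp ?_)
    push_cast
    rw [sub_eq_zero]
    exact h
  · set z := vecGal I S n g x
    refine sub_eq_zero.mp (hfix _ (sub_mem (hW σ _ (hW g x hxW))
      (smul_mem_of_trace I S hNS W htW _ (hW g x hxW))) ?_)
    rw [map_sub, map_smul]
    have := inertia_relation I S φ ρbar htr hdet hinertia hσ (vecGal_killed I S φ g hxk)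
    linear_combination (norm := module) this

variable [CharP (ResidueField A) p] [IsAlgClosed (ResidueField A)]

include htr hdet hspan hinertia hmax in
/-- The Hecke operator at `p` is injective on the vectors killed by a power of the ideal. -/
theorem eq_zero_of_heckeP (hA : A.LiesOverPrime p) (hp3 : 3 ≤ p) (hpN : ¬ p ∣ N) {n : ℕ}
    {y : Vec I n}
    (hTy : vecHecke I S n (⟨p, Fact.out⟩ : Nat.Primes) y = 0) {j : ℕ}
    (hkill : ∀ i ∈ RingHom.ker φ ^ j, i • y = 0) : y = 0 := by
  have hp : p.Prime := Fact.out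
  have : NeZero p := ⟨hp.ne_zero⟩
  let St : Setting A N p := ⟨hpN, hA, ⟨_, IgusaGenus.reductionFacts hpN hA⟩⟩
  by_contra hy0
  let τ := vecHecke I S n (⟨p, Fact.out⟩ : Nat.Primes)
  obtain ⟨x, hxτ, hx0, hxk⟩ := exists_killed (RingHom.ker φ) (τ : Vec I n →+ Vec I n).ker
    (fun a z hz => by
      rw [AddMonoidHom.mem_ker] at hz ⊢
      show τ (a • z) = 0
      rw [map_smul, show τ z = 0 from hz, smul_zero]) j y hTy hy0 hkill
  -- killed vectors have order dividing `p`
  have hpk : ∀ z : Vec I n, (∀ a ∈ RingHom.ker φ, a • z = 0) → p • z = 0 := fun z hz => by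
    rw [← Nat.cast_smul_eq_nsmul (matAway I S)]
    exact hz _ (RingHom.mem_ker.mpr (by rw [map_natCast, CharP.cast_eq_zero]))
  obtain ⟨ζ, hζ⟩ := exists_primitiveRoot (p := p) 1
  rw [pow_one] at hζ
  set Φ := pointFixer A ζ
  -- the kernel among killed vectors annihilated by `T_p`
  let K : AddSubgroup (Vec I n) :=
    { carrier := {z | (∀ a ∈ RingHom.ker φ, a • z = 0) ∧ τ z = 0 ∧
        point I n z ∈ goodKilled St p}
      zero_mem' := ⟨fun a _ => smul_zero a, map_zero _, by rw [map_zero]; exact zero_mem _⟩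
      add_mem' := fun hz hw => ⟨fun a ha => by rw [smul_add, hz.1 a ha, hw.1 a ha, add_zero],
        by rw [map_add, hz.2.1, hw.2.1, add_zero], by rw [map_add]; exact add_mem hz.2.2 hw.2.2⟩
      neg_mem' := fun hz => ⟨fun a ha => by rw [smul_neg, hz.1 a ha, neg_zero],
        by rw [map_neg, hz.2.1, neg_zero], by rw [map_neg]; exact neg_mem hz.2.2⟩ }
  have hτcomm : ∀ g z, τ (vecGal I S n g z) = vecGal I S n g (τ z) := fun g z => by
    refine point_injective I n ?_
    exact (point_hecke I S n _ _).trans ((congrArg _ (point_gal I S n g z)).trans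
      ((I.equivariant g _ _).trans ((congrArg (g • ·) (point_hecke I S n _ z).symm).trans
        (point_gal I S n g _).symm)))
  have hD : ∀ g ∈ A.decompositionSubgroup ℚ, ∀ z ∈ K, vecGal I S n g z ∈ K := fun g hg z hz =>
    ⟨vecGal_killed I S φ g hz.1, by rw [hτcomm, hz.2.1, map_zero],
      by rw [point_gal]; exact smul_mem_goodKilled St hg hz.2.2⟩
  have hK : K = ⊥ := by
    by_contra hne
    obtain ⟨b, hb, hb0, hbfix⟩ := exists_fixed ((vecGal I S n).comp Φ.H.subtype) K
      (fun h z hz => hD h (MultRed.inertia_mem_decomposition (Φ.le_inertia h.2)) z hz)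
      (fun z hz => hpk z hz.1) (fun h z hz => by
        have h1 := inertia_relation I S φ ρbar htr hdet hinertia (Φ.le_inertia h.2) hz.1
        have h2 : φ (awayEps I S (h : GQ)) = 1 := by
          rw [awayEps_apply, phi_algebraMap_eq_natCast I S φ one_ne_zero]
          have hfix : (h : GQ) ζ = ζ ^ 1 := by rw [pow_one]; exact (mem_pointFixer.mp h.2).2
          have e := toZModPow_epsilon_eq (n := 1) (by rwa [pow_one]) hfix
          rw [e, Nat.cast_one]
          have : Fact (1 < p ^ 1) := ⟨by rw [pow_one]; exact hp.one_lt⟩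
          rw [ZMod.val_one, Nat.cast_one]
        have hk : (awayEps I S (h : GQ) - 1) • z = 0 :=
          hz.1 _ (RingHom.mem_ker.mpr (by rw [map_sub, h2, map_one, sub_self]))
        have hk' : (awayEps I S (h : GQ) - 1) • vecGal I S n h z = 0 := by
          rw [← map_smul, hk, map_zero]
        show vecGal I S n h (vecGal I S n h z) - 2 • vecGal I S n h z + z = 0
        linear_combination (norm := module) h1 - hk + hk') hne
    refine hb0 (point_injective I n ((OrdinaryT.eq_zero_of_hecke_eq_zero St hb.2.2 ?_ hζ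
      fun g hg hgζ => ?_).trans (map_zero _).symm))
    · have := point_hecke I S n (⟨p, Fact.out⟩ : Nat.Primes) b
      rw [show vecHecke I S n (⟨p, Fact.out⟩ : Nat.Primes) b = 0 from hb.2.1, map_zero] at this
      exact this.symm
    · have := hbfix ⟨g, mem_pointFixer.mpr ⟨hg, hgζ⟩⟩
      rw [← point_gal I S]
      exact congrArg (point I n) this
  -- inertia fixes the killed vectors annihilated by `T_p`
  obtain ⟨σ₀, hσ₀, hmov⟩ := LocalRingP.exists_inertia_moves hp3 hA hζ
  refine false_of_scalar (quadraticAction_vecGal I S n) φ hmax ρbar htr hdet hspan hx0 hxk σ₀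
    1 (awayEps I S σ₀) ?_ (by rw [map_one, one_mul]) ?_ fun g => ?_
  · rw [map_one, htr, hdet, hinertia σ₀ hσ₀]
  · rw [map_one, awayEps_apply, phi_algebraMap_eq_natCast I S φ one_ne_zero]
    intro h
    refine hmov ((epsilon_spec σ₀ (n := 1) (by rw [pow_one]; exact hζ.pow_eq_one)).trans ?_)
    have : NeZero (p ^ 1) := ⟨pow_ne_zero _ hp.ne_zero⟩
    change 1 = ((epsilonNat p 1 σ₀ : ℕ) : k) at h
    replace h := (CharP.natCast_eq_natCast k p).mp (h.symm.trans Nat.cast_one.symm)
    have hlt : epsilonNat p 1 σ₀ < p ^ 1 := ZMod.val_lt _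
    rw [pow_one] at hlt
    have h1 : epsilonNat p 1 σ₀ = 1 := by
      have := Nat.ModEq.eq_of_lt_of_lt h hlt hp.one_lt
      exact this
    rw [h1, pow_one]
  · rw [one_smul, ← sub_eq_zero, ← AddSubgroup.mem_bot, ← hK]
    have hz := vecGal_killed I S φ g hxk
    refine ⟨fun a ha => by
        rw [smul_sub, vecGal_killed I S φ σ₀ hz a ha, hz a ha, sub_zero], ?_, ?_⟩
    · rw [map_sub, hτcomm, hτcomm, show τ x = 0 from hxτ, map_zero, map_zero, sub_zero]
    · rw [map_sub, point_gal]
      exact smul_sub_mem_goodKilled St hσ₀ (by rw [← map_nsmul, hpk _ hz, map_zero])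

include htr hdet hspan hinertia hmax in
/-- **The ordinary identity on the part.** -/
theorem exists_ordinary_multiplier (hA : A.LiesOverPrime p) (hp3 : 3 ≤ p) (hpN : ¬ p ∣ N)
    (hNS : ∀ q : ℕ, q.Prime → q ∣ N * p → q ∈ S) (n : ℕ) :
    ∃ E : matAway I S, φ E ≠ 0 ∧ ∀ σ ∈ A.inertiaSubgroupIn ℚ, ∀ τ ∈ A.inertiaSubgroupIn ℚ,
      matMod p I.model.d n ((E : Matrix (Fin I.model.d) (Fin I.model.d) ℤ_[p]) *
        ((galMat I.model σ - (epsilonPadic p σ : ℤ_[p]) • 1) * (galMat I.model τ - 1))) = 0 := by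
  classical
  have hp : p.Prime := Fact.out
  rcases Nat.eq_zero_or_pos n with rfl | hn
  · refine ⟨1, by rw [map_one]; exact one_ne_zero, fun σ _ τ _ => ?_⟩
    have : Subsingleton (ZMod (p ^ 0)) := inferInstanceAs (Subsingleton (ZMod 1))
    exact Subsingleton.elim _ _
  have : NeZero p := ⟨hp.ne_zero⟩
  have : NeZero (p ^ n) := ⟨pow_ne_zero n hp.ne_zero⟩
  let St : Setting A N p := ⟨hpN, hA, ⟨_, IgusaGenus.reductionFacts hpN hA⟩⟩
  obtain ⟨E, hE, hEE, j, hj⟩ := exists_projector (redAway I S n) φ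
  refine ⟨E, hE, fun σ hσ τ hτ => ?_⟩
  have hEy : ∀ y : Vec I n, E • E • y = E • y := fun y => by
    rw [smul_smul, smul_vec_def, smul_vec_def, hEE]
  have hEkill : ∀ y : Vec I n, E • y = y → ∀ i ∈ RingHom.ker φ ^ j, i • y = 0 := fun y hy i hi => by
    rw [← hy, smul_smul, smul_vec_def, hj i hi, zero_mulVec]
  -- the part
  let Vv : AddSubgroup (Vec I n) :=
    (DistribSMul.toAddMonoidHom (Vec I n) E - AddMonoidHom.id _).ker
  have hVv : ∀ {y}, y ∈ Vv ↔ E • y = y := fun {y} => by
    simp [Vv, AddMonoidHom.mem_ker, sub_eq_zero]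
  let V₀ := Vv.map (point I n)
  have : Finite V₀ := (Set.Finite.image _ (Set.toFinite (Vv : Set (Vec I n)))).to_subtype
  have hgal : ∀ g, ∀ y ∈ Vv, vecGal I S n g y ∈ Vv := fun g y hy => hVv.mpr (by
    rw [← map_smul, hVv.mp hy])
  have htors : ∀ v ∈ V₀, p ^ n • v = 0 := by
    rintro _ ⟨y, -, rfl⟩; exact pow_smul_point I n y
  have hV₀ : ∀ g : GQ, ∀ v ∈ V₀, g • v ∈ V₀ := by
    rintro g _ ⟨y, hy, rfl⟩
    exact ⟨_, hgal g y hy, point_gal I S n g y⟩
  have hTV : ∀ v ∈ V₀, heckeOperatorAlong Ω N p v ∈ V₀ := by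
    rintro _ ⟨y, hy, rfl⟩
    exact ⟨vecHecke I S n (⟨p, hp⟩ : Nat.Primes) y, hVv.mpr (by rw [← map_smul, hVv.mp hy]),
      point_hecke I S n (⟨p, hp⟩ : Nat.Primes) y⟩
  have hTinj : ∀ v ∈ V₀, heckeOperatorAlong Ω N p v = 0 → v = 0 := by
    rintro _ ⟨y, hy, rfl⟩ h0
    have hTy : vecHecke I S n (⟨p, hp⟩ : Nat.Primes) y = 0 :=
      point_injective I n ((point_hecke I S n (⟨p, hp⟩ : Nat.Primes) y).trans (h0.trans (map_zero _).symm))
    rw [eq_zero_of_heckeP I S φ ρbar htr hdet hspan hinertia hmax hA hp3 hpN hTy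
      (hEkill y (hVv.mp hy)), map_zero]
  have hquad : ∀ g ∈ A.inertiaSubgroupIn ℚ, ∃ t : JZero N →+ JZero N,
      (∀ (h : GQ) v, t (h • v) = h • t v) ∧ (∀ v ∈ V₀, t v ∈ V₀) ∧
        ∀ v ∈ V₀, g • g • v - t (g • v) + (epsilonNat p n g : ℤ) • v = 0 := by
    intro g _
    obtain ⟨l, hl⟩ := exists_trace_prime I S n g
    refine ⟨(heckeOperatorBar N l).toAddMonoidHom, fun h v => I.equivariant h l v, ?_, ?_⟩
    · rintro _ ⟨y, hy, rfl⟩
      exact ⟨awayTrace I S g • y, hVv.mpr (by rw [smul_comm, hVv.mp hy]), hl y⟩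
    · rintro _ ⟨y, hy, rfl⟩
      show g • g • point I n y - heckeOperatorBar N l (g • point I n y) + _ = 0
      rw [← point_gal I S, ← point_gal I S, ← hl, natCast_zsmul, ← map_nsmul, ← awayEps_smul I S,
        ← map_sub, ← map_add]
      have h := LinearMap.congr_fun (quadraticAction_vecGal I S n g) y
      simp only [LinearMap.add_apply, LinearMap.sub_apply, Module.End.mul_apply,
        LinearMap.smul_apply, Module.End.one_apply, LinearMap.zero_apply] at h
      rw [h, map_zero]
  have hirr : ∀ σ ∈ A.inertiaSubgroupIn ℚ, ¬ (p : ℤ) ∣ (epsilonNat p n σ : ℤ) - 1 →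
      ∀ W : AddSubgroup (JZero N), W ≤ V₀ → (∀ (g : GQ), ∀ v ∈ W, g • v ∈ W) →
        (∀ v ∈ W, σ • v = v → v = 0) → W = ⊥ := by
    intro σ hσ hχ W hWV hWg hWfix
    refine eq_bot_iff.mpr fun v hv => AddSubgroup.mem_bot.mpr ?_
    obtain ⟨y, hy, rfl⟩ := hWV hv
    by_contra h0
    refine false_of_fixed_point_free I S φ ρbar htr hdet hspan hinertia hmax hNS hn.ne' hσ hχ
      (W.comap (point I n)) (fun g z hz => ?_) (fun z hz hfix => ?_) (y := y) hv
      (fun e => h0 (by rw [e, map_zero])) (hEkill y (hVv.mp hy))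
    · rw [AddSubgroup.mem_comap, point_gal]; exact hWg g _ hz
    · refine point_injective I n ((hWfix _ hz ?_).trans (map_zero _).symm)
      rw [← point_gal I S, hfix]
  have hgen : HasTameGenerator (p := p) A n := by
    obtain ⟨ζ, hζ⟩ := exists_primitiveRoot (p := p) 1
    rw [pow_one] at hζ
    obtain ⟨s, hs, hmov⟩ := LocalRingP.exists_inertia_moves hp3 hA hζ
    refine ⟨s, hs, fun hd => hmov ?_⟩
    obtain ⟨c, hc⟩ := hd
    have h1 : ζ ^ p ^ n = 1 := by
      obtain ⟨n', rfl⟩ : ∃ n', n = n' + 1 := ⟨n - 1, by omega⟩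
      rw [pow_succ', pow_mul, hζ.pow_eq_one, one_pow]
    rw [epsilon_spec s h1, ← zpow_natCast, show (epsilonNat p n s : ℤ) = (p : ℤ) * c + 1 by omega,
      zpow_add₀ (hζ.ne_zero hp.ne_zero), _root_.zpow_mul, zpow_natCast, hζ.pow_eq_one, _root_.one_zpow,
      zpow_one, one_mul]
  -- conclude on the image of the multiplier
  refine Matrix.ext_of_mulVec_single fun i => ?_
  set v : Vec I n := (Pi.single i 1 : Fin I.model.d → ZMod (p ^ n)) with hv
  have hEv : E • v ∈ Vv := hVv.mpr (hEy v)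
  have key := ordinary_identity St hn.ne' V₀ htors hV₀ hTV hTinj hquad hirr hgen hσ hτ
    (AddSubgroup.mem_map_of_mem (point I n) hEv)
  rw [natCast_zsmul, ← point_gal I S, ← map_sub, ← point_gal I S, ← map_nsmul] at key
  have h := point_injective I n key
  rw [← awayEps_smul I S, ← sub_eq_zero] at h
  rw [zero_mulVec, map_mul, ← mulVec_mulVec]
  show E • (show Vec I n from matMod p I.model.d n ((galMat I.model σ -
    (epsilonPadic p σ : ℤ_[p]) • 1) * (galMat I.model τ - 1)) *ᵥ v) = 0
  have e : (show Vec I n from matMod p I.model.d n ((galMat I.model σ -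
      (epsilonPadic p σ : ℤ_[p]) • 1) * (galMat I.model τ - 1)) *ᵥ v) =
      vecGal I S n σ (vecGal I S n τ v - v) - awayEps I S σ • (vecGal I S n τ v - v) := by
    rw [map_mul, map_sub, map_sub, map_one, Algebra.smul_def, mul_one, ← mulVec_mulVec,
      sub_mulVec, sub_mulVec, one_mulVec]
    rfl
  rw [e, smul_sub, smul_comm E (awayEps I S σ), ← map_smul, smul_sub E, ← map_smul]
  exact h

end Fermat.Agent.Engine.OrdTop
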