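import Fermat.Agent.Engine.Quadratic

/-!
# A quadratic module with an absolutely irreducible residual trace has no scalar element

A group acts on a module over `R` by quadratic relations whose coefficients reduce, modulo the
annihilator of a nonzero vector, to the trace and determinant of an absolutely irreducible `ρ̄`.
An element with distinct residual eigenvalues acts by a scalar on no nonzero stable subspace.
-/

set_option autoImplicit false

noncomputable section

namespace Fermat.Agent.Engine.OrdTop

variable {R : Type*} [CommRing R] {M : Type*} [AddCommGroup M] [Module R M] {G : Type*} [Group G]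
  {k : Type*} [Field k]

/-- A unit functional on the two by two matrices is not multiplicative. -/
theorem false_of_multiplicative (L : Matrix (Fin 2) (Fin 2) k →ₗ[k] k) (h1 : L 1 = 1)
    (hmul : ∀ X Y, L (X * Y) = L X * L Y) : False := by
  have sq : ∀ i j : Fin 2, i ≠ j → L (Matrix.single i j 1) = 0 := fun i j hij => by
    have h := hmul (Matrix.single i j 1) (Matrix.single i j 1)
    rw [Matrix.single_mul_single_of_ne _ _ _ _ hij.symm, map_zero] at h
    exact mul_self_eq_zero.mp h.symm
  have diag : ∀ i j : Fin 2, i ≠ j → L (Matrix.single i i 1) = 0 := fun i j hij => by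
    have h := hmul (Matrix.single i j 1) (Matrix.single j i 1)
    rwa [Matrix.single_mul_single_same, mul_one, sq i j hij, zero_mul] at h
  have e : (1 : Matrix (Fin 2) (Fin 2) k) = Matrix.single 0 0 1 + Matrix.single 1 1 1 := by
    ext i j
    fin_cases i <;> fin_cases j <;> simp
  rw [e, map_add, diag 0 1 (by decide), diag 1 0 (by decide), add_zero] at h1
  exact zero_ne_one h1

/-- **No scalar element on a nonzero stable subspace.** -/
theorem false_of_scalar {ρ : G →* Module.End R M} {t : G → R} {χ : G →* R}
    (hq : QuadraticAction ρ t χ) (φ : R →+* k) (hmax : (RingHom.ker φ).IsMaximal)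
    (ρbar : G →* Matrix (Fin 2) (Fin 2) k) (htr : ∀ g, φ (t g) = (ρbar g).trace)
    (hdet : ∀ g, φ (χ g) = (ρbar g).det) (hspan : Submodule.span k (Set.range ρbar) = ⊤)
    {x : M} (hx : x ≠ 0) (hkill : ∀ a ∈ RingHom.ker φ, a • x = 0)
    (σ : G) (s s' : R) (hs : φ s + φ s' = φ (t σ)) (hss : φ s * φ s' = φ (χ σ))
    (hne : φ s ≠ φ s') (hscal : ∀ g, ρ σ (ρ g x) = s • ρ g x) : False := by
  have hs0 : φ s ≠ 0 := by
    intro e
    have h := hdet σ
    rw [← hss, e, zero_mul] at h
    have h2 := congrArg Matrix.det (show ρbar σ * ρbar σ⁻¹ = 1 by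
      rw [← map_mul, mul_inv_cancel, map_one])
    rw [Matrix.det_mul, ← h, zero_mul, Matrix.det_one] at h2
    exact zero_ne_one h2
  have hinj : ∀ a, φ a ≠ 0 → ∀ w : M, (∀ b ∈ RingHom.ker φ, b • w = 0) → a • w = 0 → w = 0 := by
    intro a ha w hw haw
    obtain ⟨b, i, hi, hbi⟩ := hmax.exists_inv (x := a) ha
    rw [← one_smul R w, ← hbi, add_smul, mul_smul, haw, smul_zero, hw i hi, add_zero]
  have hkillg : ∀ a ∈ RingHom.ker φ, ∀ g, a • ρ g x = 0 := fun a ha g => by
    rw [← map_smul, hkill a ha, map_zero]
  have hgx : ∀ g, ρ g x ≠ 0 := fun g hg => hx (by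
    have := congrArg (ρ g⁻¹) hg
    rwa [map_zero, ← Module.End.mul_apply, ← map_mul, inv_mul_cancel, map_one,
      Module.End.one_apply] at this)
  -- the relation of the second eigenvalue
  set c : G → R := fun g => s * t g - t (g * σ) with hc
  have hcx : ∀ g h, c g • ρ (g * h) x = ((s - s') * χ g) • ρ h x := by
    intro g h
    set y := ρ h x with hy
    set z := ρ g y with hzdef
    have hzgh : ρ (g * h) x = z := by rw [hzdef, hy, map_mul, Module.End.mul_apply]
    have hσy : ρ σ y = s • y := hscal h
    have hσz : ρ σ z = s • z := by rw [← hzgh]; exact hscal (g * h)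
    have h1 := LinearMap.congr_fun (hq (g * σ)) y
    have h2 := LinearMap.congr_fun (hq g) y
    have h3 : (s * s' - χ σ) • y = 0 := hkillg _ (RingHom.mem_ker.mpr (by
      rw [map_sub, map_mul, hss, sub_self])) h
    simp only [LinearMap.add_apply, LinearMap.sub_apply, Module.End.mul_apply,
      LinearMap.smul_apply, Module.End.one_apply, LinearMap.zero_apply, map_mul ρ, map_mul χ, hσy,
      map_smul, hσz, ← hzdef] at h1 h2
    rw [hzgh]
    refine sub_eq_zero.mp (hinj s hs0 _ (fun b hb => ?_) ?_)
    · rw [smul_sub, smul_comm b, smul_comm b, ← hzgh, hkillg b hb, hkillg b hb, smul_zero,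
        smul_zero, sub_zero]
    · rw [hc]
      linear_combination (norm := module) h1 - s • s • h2 + χ g • h3
  have hne' : φ s - φ s' ≠ 0 := sub_ne_zero.mpr hne
  have hc0 : ∀ g, φ (c g) ≠ 0 := fun g h0 => by
    have h := hcx g 1
    rw [hkillg _ (RingHom.mem_ker.mpr h0)] at h
    have hχ0 : φ (χ g) ≠ 0 := fun e => by
      have h2 := congrArg φ (show χ g * χ g⁻¹ = 1 by rw [← map_mul, mul_inv_cancel, map_one])
      rw [map_mul, e, zero_mul, map_one] at h2
      exact zero_ne_one h2
    exact hgx 1 (hinj ((s - s') * χ g) (by rw [map_mul, map_sub]; exact mul_ne_zero hne' hχ0) _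
      (fun b hb => hkillg b hb 1) h.symm)
  have hcmul : ∀ g h, φ (s - s') * φ (c (g * h)) = φ (c g) * φ (c h) := by
    intro g h
    by_contra hne2
    refine hgx (g * h) (hinj ((s - s') * c (g * h) - c g * c h) ?_ _
      (fun b hb => hkillg b hb _) ?_)
    · rw [map_sub, map_mul, map_mul]
      exact sub_ne_zero.mpr hne2
    · have e1 := hcx (g * h) 1
      rw [mul_one] at e1
      have e2 := hcx g h
      have e3 := hcx h 1
      rw [mul_one] at e3
      rw [map_mul χ] at e1
      rw [sub_smul, mul_comm (c g), mul_smul, mul_smul, e1, e2, smul_comm (c h), e3, smul_smul,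
        smul_smul, sub_eq_zero]
      congr 1
      ring
  -- the functional
  let L : Matrix (Fin 2) (Fin 2) k →ₗ[k] k :=
    { toFun := fun X => (φ s * X.trace - (X * ρbar σ).trace) * (φ s - φ s')⁻¹
      map_add' := fun X Y => by simp only [Matrix.add_mul, Matrix.trace_add]; ring
      map_smul' := fun a X => by
        simp only [Matrix.smul_mul, Matrix.trace_smul, smul_eq_mul, RingHom.id_apply]; ring }
  have hLX : ∀ X, L X = (φ s * X.trace - (X * ρbar σ).trace) * (φ s - φ s')⁻¹ := fun _ => rfl
  have hLg : ∀ g, L (ρbar g) = φ (c g) * (φ s - φ s')⁻¹ := fun g => by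
    rw [hLX, hc, map_sub, map_mul, htr, htr, map_mul]
  refine false_of_multiplicative L ?_ fun X Y => ?_
  · rw [hLX, one_mul, Matrix.trace_one, Fintype.card_fin, ← htr σ, ← hs]
    push_cast
    field_simp
    ring
  · have hX : X ∈ Submodule.span k (Set.range ρbar) := hspan ▸ Submodule.mem_top
    have hY : Y ∈ Submodule.span k (Set.range ρbar) := hspan ▸ Submodule.mem_top
    induction hX using Submodule.span_induction with
    | mem _ hXr =>
      obtain ⟨g, rfl⟩ := hXr
      induction hY using Submodule.span_induction with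
      | mem _ hYr =>
        obtain ⟨h, rfl⟩ := hYr
        rw [← map_mul, hLg, hLg, hLg]
        have := hcmul g h
        rw [map_sub] at this
        field_simp
        linear_combination this
      | zero => simp
      | add a b _ _ ha hb => rw [Matrix.mul_add, map_add, map_add, ha, hb, mul_add]
      | smul a b _ hb => rw [Matrix.mul_smul, map_smul, map_smul, hb, smul_eq_mul, smul_eq_mul]; ring
    | zero => simp
    | add a b _ _ ha hb => rw [Matrix.add_mul, map_add, map_add, ha, hb, add_mul]
    | smul a b _ hb => rw [Matrix.smul_mul, map_smul, map_smul, hb, smul_eq_mul, smul_eq_mul, mul_assoc]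

end Fermat.Agent.Engine.OrdTop
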